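import Mathlib
import Fermat.Agent.SQ.Germ.DerivVert
import Fermat.Agent.SQ.Germ.CartierOrd
import Fermat.Agent.TT.Red2.Gauss1
import Fermat.Agent.TT.Red2.AL
import Fermat.Agent.S24.Degree

/-!
# Program MR (S44), block `mrt` (THICK), sub-leaf `mrtd` : THE DERIVATION `D_u = u · d/du` OF
`F_ℚ̄(N)` AND THE TWO GAUSS VALUATIONS

Owner: helper17.  Namespace `Fermat.Agent.MR`, prefix `mrtd` / `Mrtd`.  Main untouched.

`F = modularFunctionFieldBar N ⊂ ℚ̄((𝐪))`, `θ = 𝐪 d/d𝐪 = sqvtTheta` (Program Q, `SQ/Val/Theta.lean`).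
Program Q (`SQ/Germ/DerivVert.lean`) has `d/dj = θ/θj` on `modularFunctionFieldFullC K N` for every
field `K` of characteristic `0`; here it is transported to `F` (`ttr_bar_eq`), normalised as
`D_u = u · (du/dj)⁻¹ · d/dj`, and compared with the Gauss ring `V₁ = grdO (M * p) 𝔸` of TT and with
`V₂ = w⁻¹ V₁` (`w` the Atkin–Lehner automorphism, or ANY ring automorphism of `F`).

* §1 `mrtdDj N` : `d/dj` on `F`; `mrtdDj_spec : dx/dj · θ j = θ x`; Leibniz; constants; `d j/dj = 1`;
* §2 `mrtdD N u` : `D_u`; `mrtdD_spec : D_u f · θ u = u · θ f`; Leibniz; constants; `D_u u = u`;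
  `mrtdD_inv : D_{c/u} = - D_u`; **uniqueness** `mrtdD_unique` (no hypothesis on constants), and
  `mrtdD_conj : w (D_u f) = D_{w u} (w f)` for every ring automorphism `w`;
* §3 the Gauss ring from an identity of ARBITRARY integral series (`mrtd_mem_of_mul_eq`,
  `mrtd_red_of_mul_eq`), `θ` on the Gauss ring (`mrtd_theta_gauss`);
* §4 **(D1)** `mrtdDj_gauss`, `mrtdD_gauss₁` : `D_u V₁ ⊆ V₁` and
  `red₁ (D_u f) · θ (red₁ u) = red₁ u · θ (red₁ f)` when `θ (red₁ u) ≠ 0`;
  **(D2)** `mrtdD_gauss₂` : the same for `V₂`, `red₂ = red₁ ∘ w`.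
-/

set_option autoImplicit false
set_option linter.unusedSectionVars false
set_option linter.unusedVariables false
set_option linter.style.haveILetI false
set_option synthInstance.maxHeartbeats 400000

noncomputable section

namespace Fermat.Agent.MR

open Polynomial ModularCurve AlgebraicCurve IsLocalRing IntermediateField Fermat.Agent.S24
  Fermat.Agent.G Fermat.Agent.S18 Fermat.Agent.SS Fermat.Agent.SQ Fermat.Agent.TT

local notation "Qb" => AlgebraicClosure ℚ

/-! ## §1  `d/dj` on `F_ℚ̄(N)` -/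

section Dj

variable (N : ℕ) [NeZero N]

/-- `F_ℚ̄(N)` is stable under `d/dj = θ / θ j`. -/
theorem mrtd_dj_mem (x : modularFunctionFieldBar N) :
    sqgvDj Qb (x : LaurentSeries Qb) ∈ modularFunctionFieldBar N := by
  have hx : (x : LaurentSeries Qb) ∈ modularFunctionFieldFullC Qb N := (ttr_bar_eq N).le x.2
  exact (ttr_bar_eq N).ge (sqgv_dj_mem Qb N ⟨(x : LaurentSeries Qb), hx⟩)

/-- **`d/dj`** as an additive endomorphism of `F_ℚ̄(N)`. -/
def mrtdDj : modularFunctionFieldBar N →+ modularFunctionFieldBar N where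
  toFun x := ⟨sqgvDj Qb (x : LaurentSeries Qb), mrtd_dj_mem N x⟩
  map_zero' := Subtype.ext (by push_cast; rw [map_zero])
  map_add' x y := Subtype.ext (by push_cast; rw [map_add])

theorem mrtdDj_coe (x : modularFunctionFieldBar N) :
    ((mrtdDj N x : modularFunctionFieldBar N) : LaurentSeries Qb) =
      sqgvDj Qb (x : LaurentSeries Qb) := rfl

/-- `dx/dj · θ j = θ x` -/
theorem mrtdDj_spec (x : modularFunctionFieldBar N) :
    ((mrtdDj N x : modularFunctionFieldBar N) : LaurentSeries Qb) * sqvtTheta Qb (jqModC Qb) =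
      sqvtTheta Qb (x : LaurentSeries Qb) :=
  sqgvDj_mul_thJ Qb _

theorem mrtdDj_mul (x y : modularFunctionFieldBar N) :
    mrtdDj N (x * y) = mrtdDj N x * y + x * mrtdDj N y :=
  Subtype.ext (by
    push_cast
    rw [mrtdDj_coe, mrtdDj_coe, mrtdDj_coe]
    push_cast
    exact sqgvDj_mul Qb _ _)

theorem mrtdDj_algebraMap (c : Qb) :
    mrtdDj N (algebraMap Qb (modularFunctionFieldBar N) c) = 0 :=
  Subtype.ext (sqgvDj_algebraMap Qb c)

/-- the coercion of `jBar` is `jqModC` -/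
theorem mrtd_coe_jBar : ((jBar N : modularFunctionFieldBar N) : LaurentSeries Qb) = jqModC Qb := by
  rw [coe_jBar, coeffEmb, ← jqModC_rat, coeffMap_jqModC]

theorem mrtdDj_j : mrtdDj N (jBar N) = 1 :=
  Subtype.ext (by rw [mrtdDj_coe, mrtd_coe_jBar]; exact sqgvDj_j Qb)

/-- `θ x = 0` iff `dx/dj = 0` -/
theorem mrtdDj_eq_zero_iff (x : modularFunctionFieldBar N) :
    mrtdDj N x = 0 ↔ sqvtTheta Qb (x : LaurentSeries Qb) = 0 := by
  rw [← mrtdDj_spec N x]
  constructor
  · intro h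
    rw [h]
    push_cast
    rw [zero_mul]
  · intro h
    apply Subtype.ext
    push_cast
    exact (mul_eq_zero.mp h).resolve_right (sqgvThJ_ne_zero Qb)

end Dj

/-! ## §2  `D_u = u · d/du` on `F_ℚ̄(N)` -/

section Du

variable (N : ℕ) [NeZero N]

/-- **`D_u = u · (du/dj)⁻¹ · d/dj`**, the derivation of `F_ℚ̄(N)` with `D_u u = u`
(meaningful when `du/dj ≠ 0`, i.e. `θ u ≠ 0`). -/
def mrtdD (u : modularFunctionFieldBar N) :
    modularFunctionFieldBar N →+ modularFunctionFieldBar N :=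
  (AddMonoidHom.mulLeft (u * (mrtdDj N u)⁻¹)).comp (mrtdDj N)

theorem mrtdD_apply (u f : modularFunctionFieldBar N) :
    mrtdD N u f = u * (mrtdDj N u)⁻¹ * mrtdDj N f := rfl

theorem mrtdD_mul (u f g : modularFunctionFieldBar N) :
    mrtdD N u (f * g) = mrtdD N u f * g + f * mrtdD N u g := by
  rw [mrtdD_apply, mrtdD_apply, mrtdD_apply, mrtdDj_mul]
  ring

theorem mrtdD_algebraMap (u : modularFunctionFieldBar N) (c : Qb) :
    mrtdD N u (algebraMap Qb (modularFunctionFieldBar N) c) = 0 := by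
  rw [mrtdD_apply, mrtdDj_algebraMap, mul_zero]

theorem mrtdD_self (u : modularFunctionFieldBar N) (hu : mrtdDj N u ≠ 0) : mrtdD N u u = u := by
  rw [mrtdD_apply, mul_assoc, inv_mul_cancel₀ hu, mul_one]

/-- **`D_u f · θ u = u · θ f`** in `ℚ̄((𝐪))` -/
theorem mrtdD_spec (u f : modularFunctionFieldBar N) (hu : mrtdDj N u ≠ 0) :
    ((mrtdD N u f : modularFunctionFieldBar N) : LaurentSeries Qb) *
      sqvtTheta Qb (u : LaurentSeries Qb) =
      (u : LaurentSeries Qb) * sqvtTheta Qb (f : LaurentSeries Qb) := by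
  have hu' : ((mrtdDj N u : modularFunctionFieldBar N) : LaurentSeries Qb) ≠ 0 := fun h =>
    hu (Subtype.ext h)
  rw [← mrtdDj_spec N u, ← mrtdDj_spec N f, mrtdD_apply]
  push_cast
  field_simp

/-- `D_u f = 0` iff `θ f = 0` (when `θ u ≠ 0`, `u ≠ 0`) -/
theorem mrtdD_eq_zero_iff (u f : modularFunctionFieldBar N) (hu : mrtdDj N u ≠ 0) (hu0 : u ≠ 0) :
    mrtdD N u f = 0 ↔ sqvtTheta Qb (f : LaurentSeries Qb) = 0 := by
  rw [mrtdD_apply, ← mrtdDj_eq_zero_iff]
  constructor
  · intro h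
    exact (mul_eq_zero.mp h).resolve_left (mul_ne_zero hu0 (inv_ne_zero hu))
  · intro h
    rw [h, mul_zero]

/-- a Leibniz map of a field of characteristic `0` kills `1` -/
theorem mrtd_leibniz_one {F : Type*} [Field F] (δ : F →+ F)
    (hδ : ∀ a b, δ (a * b) = δ a * b + a * δ b) : δ 1 = 0 := by
  have h := hδ 1 1
  rw [mul_one, one_mul, mul_one] at h
  exact left_eq_add.mp h

/-- a Leibniz map of `F_ℚ̄(N)` kills the constants `ℚ̄` (they are algebraic over `ℚ`). -/
theorem mrtd_leibniz_const (δ : modularFunctionFieldBar N →+ modularFunctionFieldBar N)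
    (hδ : ∀ a b, δ (a * b) = δ a * b + a * δ b) (c : Qb) :
    δ (algebraMap Qb (modularFunctionFieldBar N) c) = 0 := by
  have h1 := mrtd_leibniz_one δ hδ
  let σ : Qb →+* modularFunctionFieldBar N := algebraMap Qb (modularFunctionFieldBar N)
  let δ' : Qb →+ modularFunctionFieldBar N := δ.comp (σ : Qb →+ modularFunctionFieldBar N)
  haveI : Algebra.IsAlgebraic ℚ Qb := AlgebraicClosure.isAlgebraic ℚ
  haveI : Algebra.IsAlgebraic ↥ℚ⟮(0 : Qb)⟯ Qb := Algebra.IsAlgebraic.tower_top (K := ℚ) ↥ℚ⟮(0 : Qb)⟯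
  refine sqgv_deriv_unique (E := ℚ) σ δ' (fun a b => ?_) (fun q => ?_) (0 : Qb) ?_ c
  · show δ (σ (a * b)) = δ (σ a) * σ b + σ a * δ (σ b)
    rw [map_mul, hδ]
  · show δ (σ (algebraMap ℚ Qb q)) = 0
    have e : σ (algebraMap ℚ Qb q) = q • (1 : modularFunctionFieldBar N) := by
      rw [← IsScalarTower.algebraMap_apply ℚ Qb (modularFunctionFieldBar N),
        Algebra.algebraMap_eq_smul_one]
    rw [e, map_rat_smul, h1, smul_zero]
  · show δ (σ 0) = 0
    rw [map_zero, map_zero]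

/-- every additive Leibniz map `δ` of `F_ℚ̄(N)` is `δ j · d/dj` (nothing is assumed about the
constants). -/
theorem mrtd_leibniz_eq (δ : modularFunctionFieldBar N →+ modularFunctionFieldBar N)
    (hδ : ∀ a b, δ (a * b) = δ a * b + a * δ b) (x : modularFunctionFieldBar N) :
    δ x = δ (jBar N) * mrtdDj N x := by
  haveI := (isSepGen_jBar N).finite
  haveI : Algebra.IsAlgebraic ↥Qb⟮jBar N⟯ ↥(modularFunctionFieldBar N) :=
    Algebra.IsAlgebraic.of_finite _ _
  let δ' : modularFunctionFieldBar N →+ modularFunctionFieldBar N :=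
    δ - (AddMonoidHom.mulLeft (δ (jBar N))).comp (mrtdDj N)
  have hδ'a : ∀ y, δ' y = δ y - δ (jBar N) * mrtdDj N y := fun y => rfl
  have h0 := sqgv_deriv_unique (E := Qb) (RingHom.id (modularFunctionFieldBar N)) δ'
    (fun a b => by
      rw [hδ'a, hδ'a, hδ'a, hδ, mrtdDj_mul]
      simp only [RingHom.id_apply]
      ring)
    (fun c => by rw [hδ'a, mrtd_leibniz_const N δ hδ, mrtdDj_algebraMap, mul_zero, sub_zero])
    (jBar N) (by rw [hδ'a, mrtdDj_j, mul_one, sub_self]) x
  rw [hδ'a, sub_eq_zero] at h0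
  exact h0

/-- **UNIQUENESS** : an additive Leibniz map `δ` of `F_ℚ̄(N)` with `δ u = u` is `D_u`
(`θ u ≠ 0`; nothing is assumed about the constants). -/
theorem mrtdD_unique (u : modularFunctionFieldBar N) (hu : mrtdDj N u ≠ 0)
    (δ : modularFunctionFieldBar N →+ modularFunctionFieldBar N)
    (hδ : ∀ a b, δ (a * b) = δ a * b + a * δ b) (hδu : δ u = u)
    (f : modularFunctionFieldBar N) : δ f = mrtdD N u f := by
  have hj : δ (jBar N) = u * (mrtdDj N u)⁻¹ := by
    have h := mrtd_leibniz_eq N δ hδ u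
    rw [hδu] at h
    exact (eq_mul_inv_iff_mul_eq₀ hu).mpr h.symm
  rw [mrtd_leibniz_eq N δ hδ f, hj, mrtdD_apply]

/-- `θ (w u) ≠ 0 ⟹ θ u ≠ 0` for a ring automorphism `w` -/
theorem mrtdDj_ne_zero_of_conj (w : modularFunctionFieldBar N ≃+* modularFunctionFieldBar N)
    (u : modularFunctionFieldBar N) (hwu : mrtdDj N (w u) ≠ 0) : mrtdDj N u ≠ 0 := by
  intro hu
  let δ : modularFunctionFieldBar N →+ modularFunctionFieldBar N :=
    ((w.symm : modularFunctionFieldBar N →+* modularFunctionFieldBar N) :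
      modularFunctionFieldBar N →+ modularFunctionFieldBar N).comp
      ((mrtdDj N).comp
        ((w : modularFunctionFieldBar N →+* modularFunctionFieldBar N) :
          modularFunctionFieldBar N →+ modularFunctionFieldBar N))
  have hδa : ∀ y, δ y = w.symm (mrtdDj N (w y)) := fun y => rfl
  have h := mrtd_leibniz_eq N δ (fun a b => by
      rw [hδa, hδa, hδa, map_mul, mrtdDj_mul, map_add, map_mul, map_mul,
        RingEquiv.symm_apply_apply, RingEquiv.symm_apply_apply]) u
  rw [hu, mul_zero, hδa] at h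
  apply hwu
  have h2 := congrArg w h
  rwa [RingEquiv.apply_symm_apply, map_zero] at h2

/-- `D_{c/u} = - D_u` for a constant `c ≠ 0` -/
theorem mrtdD_inv (u : modularFunctionFieldBar N) (hu : mrtdDj N u ≠ 0) (hu0 : u ≠ 0)
    (c : Qb) (hc : c ≠ 0) (f : modularFunctionFieldBar N) :
    mrtdD N (algebraMap Qb (modularFunctionFieldBar N) c * u⁻¹) f = - mrtdD N u f := by
  have hc' : algebraMap Qb (modularFunctionFieldBar N) c ≠ 0 :=
    (map_ne_zero (algebraMap Qb (modularFunctionFieldBar N))).mpr hc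
  have hinv : mrtdDj N u⁻¹ = -(mrtdDj N u * u⁻¹ ^ 2) := by
    have h := mrtdDj_mul N u u⁻¹
    rw [mul_inv_cancel₀ hu0] at h
    have h1 : mrtdDj N (1 : modularFunctionFieldBar N) = 0 :=
      mrtd_leibniz_one (mrtdDj N) (mrtdDj_mul N)
    rw [h1] at h
    have h2 : u * mrtdDj N u⁻¹ = -(mrtdDj N u * u⁻¹) := by
      rw [eq_neg_iff_add_eq_zero, add_comm]
      exact h.symm
    calc mrtdDj N u⁻¹ = u⁻¹ * (u * mrtdDj N u⁻¹) := by
          rw [← mul_assoc, inv_mul_cancel₀ hu0, one_mul]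
      _ = -(mrtdDj N u * u⁻¹ ^ 2) := by rw [h2]; ring
  have hd : mrtdDj N (algebraMap Qb (modularFunctionFieldBar N) c * u⁻¹) =
      -(algebraMap Qb (modularFunctionFieldBar N) c * (mrtdDj N u * u⁻¹ ^ 2)) := by
    rw [mrtdDj_mul, mrtdDj_algebraMap, zero_mul, zero_add, hinv, mul_neg]
  rw [mrtdD_apply, mrtdD_apply, hd]
  field_simp

/-- **conjugation** : `w (D_u f) = D_{w u} (w f)` for every ring automorphism `w` of `F_ℚ̄(N)`. -/
theorem mrtdD_conj (w : modularFunctionFieldBar N ≃+* modularFunctionFieldBar N)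
    (u : modularFunctionFieldBar N) (hwu : mrtdDj N (w u) ≠ 0)
    (f : modularFunctionFieldBar N) : w (mrtdD N u f) = mrtdD N (w u) (w f) := by
  have hu := mrtdDj_ne_zero_of_conj N w u hwu
  let δ : modularFunctionFieldBar N →+ modularFunctionFieldBar N :=
    ((w.symm : modularFunctionFieldBar N →+* modularFunctionFieldBar N) :
      modularFunctionFieldBar N →+ modularFunctionFieldBar N).comp
      ((mrtdD N (w u)).comp
        ((w : modularFunctionFieldBar N →+* modularFunctionFieldBar N) :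
          modularFunctionFieldBar N →+ modularFunctionFieldBar N))
  have hδa : ∀ y, δ y = w.symm (mrtdD N (w u) (w y)) := fun y => rfl
  have h := mrtdD_unique N u hu δ (fun a b => by
      rw [hδa, hδa, hδa, map_mul, mrtdD_mul, map_add, map_mul, map_mul, RingEquiv.symm_apply_apply,
        RingEquiv.symm_apply_apply])
    (by rw [hδa, mrtdD_self N (w u) hwu, RingEquiv.symm_apply_apply]) f
  rw [← h, hδa, RingEquiv.apply_symm_apply]

end Du

/-! ## §3  The Gauss ring `V₁ = grdO (M * p) 𝔸` from an identity of arbitrary integral series -/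

/-- a prime is nonzero (local instance, proof-irrelevant) -/
theorem mrtd_neZero (p : ℕ) [Fact p.Prime] : NeZero p := ⟨(Fact.out : p.Prime).ne_zero⟩

attribute [local instance] mrtd_neZero

section Gauss

variable (M : ℕ) [NeZero M] {p : ℕ} [Fact p.Prime] (A : ValuationSubring Qb)

/-- `x · u = v` with `u, v ∈ 𝔸((𝐪))` ARBITRARY (not necessarily in `F`), `ū ≠ 0` : then `x` lies in
the Gauss ring `V₁`. -/
theorem mrtd_mem_of_mul_eq (hpM : ¬ p ∣ M) (hA : A.LiesOverPrime p)
    (x : modularFunctionFieldBar (M * p)) (u v : LaurentSeries A)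
    (hu : coeffMap (residue A) u ≠ 0)
    (h : (x : LaurentSeries Qb) * coeffMap A.subtype u = coeffMap A.subtype v) :
    x ∈ grdO (M * p) A := by
  by_cases hx0 : x = 0
  · rw [hx0]
    exact Subring.zero_mem _
  rcases ttr_mem_or_inv_mem M A hpM hA x with hx | hx
  · exact hx
  by_cases hred : grdRed (M * p) A ⟨x⁻¹, hx⟩ = 0
  · exfalso
    obtain ⟨a, b, ha, hb, hb0, hyab⟩ := hx
    have hr := grdRed_eq (M * p) A ⟨x⁻¹, ⟨a, b, ha, hb, hb0, hyab⟩⟩ a b hb0 hyab
    rw [hred] at hr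
    have ha0 : coeffMap (residue A) a = 0 := by
      have h1 : coeffMap (residue A) a / coeffMap (residue A) b = 0 := hr.symm
      rcases div_eq_zero_iff.mp h1 with h2 | h2
      · exact h2
      · exact absurd h2 hb0
    have hx0' : (x : LaurentSeries Qb) ≠ 0 := fun h0 => hx0 (Subtype.ext h0)
    have hyab' : ((x : LaurentSeries Qb))⁻¹ * coeffMap A.subtype b = coeffMap A.subtype a := by
      have : ((x⁻¹ : modularFunctionFieldBar (M * p)) : LaurentSeries Qb) =
          ((x : LaurentSeries Qb))⁻¹ := by push_cast; rfl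
      rw [← this]
      exact hyab
    have h1 : coeffMap A.subtype (u * b) = coeffMap A.subtype (v * a) := by
      rw [map_mul, map_mul, ← h, ← hyab']
      field_simp
    have h3 := congrArg (coeffMap (residue A)) (grd_coeffMap_subtype_injective A h1)
    rw [map_mul, map_mul, ha0, mul_zero] at h3
    exact (mul_ne_zero hu hb0) h3
  · have := ttr_inv_mem M A hpM hA ⟨x⁻¹, hx⟩ hred
    simpa using this

/-- `x · u = v` with `u, v ∈ 𝔸((𝐪))` arbitrary, `x ∈ V₁` : `red₁ x · ū = v̄`. -/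
theorem mrtd_red_of_mul_eq (x : ↥(grdO (M * p) A)) (u v : LaurentSeries A)
    (h : ((x : modularFunctionFieldBar (M * p)) : LaurentSeries Qb) * coeffMap A.subtype u =
      coeffMap A.subtype v) :
    ((grdRed (M * p) A x : modularFunctionFieldFullC (ResidueField A) (M * p)) :
      LaurentSeries (ResidueField A)) * coeffMap (residue A) u = coeffMap (residue A) v := by
  obtain ⟨a, b, ha, hb, hb0, hxab⟩ := x.2
  rw [grdRed_eq (M * p) A x a b hb0 hxab, div_mul_eq_mul_div, div_eq_iff hb0]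
  have h1 : coeffMap A.subtype (a * u) = coeffMap A.subtype (v * b) := by
    rw [map_mul, map_mul, ← hxab, ← h]
    ring
  have h3 := congrArg (coeffMap (residue A)) (grd_coeffMap_subtype_injective A h1)
  rwa [map_mul, map_mul] at h3

/-- `θ` on the Gauss ring : for `x = a / b ∈ V₁`, `θ x · b² = c` with
`c = θa · b - a · θb ∈ 𝔸((𝐪))` and `c̄ = θ (red₁ x) · b̄²`. -/
theorem mrtd_theta_gauss (x : modularFunctionFieldBar (M * p)) (hx : x ∈ grdO (M * p) A) :
    ∃ b c : LaurentSeries A, coeffMap (residue A) b ≠ 0 ∧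
      sqvtTheta Qb (x : LaurentSeries Qb) * coeffMap A.subtype b ^ 2 = coeffMap A.subtype c ∧
      sqvtTheta (ResidueField A)
        ((grdRed (M * p) A ⟨x, hx⟩ : modularFunctionFieldFullC (ResidueField A) (M * p)) :
          LaurentSeries (ResidueField A)) * coeffMap (residue A) b ^ 2 =
        coeffMap (residue A) c := by
  obtain ⟨a, b, ha, hb, hb0, hxab⟩ := hx
  have hxred := grdRed_eq (M * p) A ⟨x, ⟨a, b, ha, hb, hb0, hxab⟩⟩ a b hb0 hxab
  refine ⟨b, sqvtTheta A a * b - a * sqvtTheta A b, hb0, ?_, ?_⟩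
  · have h1 := congrArg (sqvtTheta Qb) hxab
    rw [sqvtTheta_mul, sqvtTheta_coeffMap, sqvtTheta_coeffMap] at h1
    rw [map_sub, map_mul, map_mul, ← h1, ← hxab]
    ring
  · rw [hxred]
    have h1 : coeffMap (residue A) a / coeffMap (residue A) b * coeffMap (residue A) b =
        coeffMap (residue A) a := div_mul_cancel₀ _ hb0
    have h2 := congrArg (sqvtTheta (ResidueField A)) h1
    rw [sqvtTheta_mul, sqvtTheta_coeffMap, sqvtTheta_coeffMap] at h2
    rw [map_sub, map_mul, map_mul, ← h2]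
    conv_rhs => rw [← h1]
    field_simp
    ring

/-! ## §4  `d/dj` and `D_u` preserve the Gauss rings and commute with the reductions -/

/-- **`d/dj` preserves `V₁`**, and `red₁ (dx/dj) · θ j̄ = θ (red₁ x)`. -/
theorem mrtdDj_gauss (hpM : ¬ p ∣ M) (hA : A.LiesOverPrime p)
    (x : modularFunctionFieldBar (M * p)) (hx : x ∈ grdO (M * p) A) :
    ∃ hD : mrtdDj (M * p) x ∈ grdO (M * p) A,
      ((grdRed (M * p) A ⟨mrtdDj (M * p) x, hD⟩ :
          modularFunctionFieldFullC (ResidueField A) (M * p)) : LaurentSeries (ResidueField A)) *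
        sqvtTheta (ResidueField A) (jqModC (ResidueField A)) =
      sqvtTheta (ResidueField A)
        ((grdRed (M * p) A ⟨x, hx⟩ : modularFunctionFieldFullC (ResidueField A) (M * p)) :
          LaurentSeries (ResidueField A)) := by
  obtain ⟨b, c, hb0, hxc, hxc'⟩ := mrtd_theta_gauss M A x hx
  have hj0 : coeffMap (residue A) (sqvtTheta A (jqModC A)) ≠ 0 := by
    rw [← sqvtTheta_coeffMap, coeffMap_jqModC]
    exact sqgvThJ_ne_zero _
  have hu : coeffMap (residue A) (sqvtTheta A (jqModC A) * b ^ 2) ≠ 0 := by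
    rw [map_mul, map_pow]
    exact mul_ne_zero hj0 (pow_ne_zero 2 hb0)
  have h : ((mrtdDj (M * p) x : modularFunctionFieldBar (M * p)) : LaurentSeries Qb) *
      coeffMap A.subtype (sqvtTheta A (jqModC A) * b ^ 2) = coeffMap A.subtype c := by
    rw [map_mul, map_pow, ← sqvtTheta_coeffMap, coeffMap_jqModC, ← mul_assoc, mrtdDj_spec, hxc]
  have hD := mrtd_mem_of_mul_eq M A hpM hA (mrtdDj (M * p) x) _ _ hu h
  refine ⟨hD, ?_⟩
  have h2 := mrtd_red_of_mul_eq M A ⟨mrtdDj (M * p) x, hD⟩ _ _ h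
  rw [map_mul, map_pow, ← sqvtTheta_coeffMap, coeffMap_jqModC, ← hxc', ← mul_assoc] at h2
  exact mul_right_cancel₀ (pow_ne_zero 2 hb0) h2

/-- `θ (red₁ u) ≠ 0 ⟹ θ u ≠ 0` -/
theorem mrtdDj_ne_zero_of_red (hpM : ¬ p ∣ M) (hA : A.LiesOverPrime p)
    (u : modularFunctionFieldBar (M * p)) (hu : u ∈ grdO (M * p) A)
    (hθ : sqvtTheta (ResidueField A)
      ((grdRed (M * p) A ⟨u, hu⟩ : modularFunctionFieldFullC (ResidueField A) (M * p)) :
        LaurentSeries (ResidueField A)) ≠ 0) : mrtdDj (M * p) u ≠ 0 := by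
  intro h0
  obtain ⟨hD, hred⟩ := mrtdDj_gauss M A hpM hA u hu
  apply hθ
  rw [← hred]
  have : (⟨mrtdDj (M * p) u, hD⟩ : ↥(grdO (M * p) A)) = 0 := Subtype.ext h0
  rw [this, map_zero]
  push_cast
  rw [zero_mul]

/-- if `θ (red₁ u) ≠ 0` then `du/dj` is a unit of `V₁`. -/
theorem mrtdDj_inv_gauss (hpM : ¬ p ∣ M) (hA : A.LiesOverPrime p)
    (u : modularFunctionFieldBar (M * p)) (hu : u ∈ grdO (M * p) A)
    (hθ : sqvtTheta (ResidueField A)
      ((grdRed (M * p) A ⟨u, hu⟩ : modularFunctionFieldFullC (ResidueField A) (M * p)) :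
        LaurentSeries (ResidueField A)) ≠ 0) :
    (mrtdDj (M * p) u)⁻¹ ∈ grdO (M * p) A := by
  obtain ⟨hD, hred⟩ := mrtdDj_gauss M A hpM hA u hu
  refine ttr_inv_mem M A hpM hA ⟨mrtdDj (M * p) u, hD⟩ ?_
  intro h0
  apply hθ
  rw [← hred, h0]
  push_cast
  rw [zero_mul]

/-- **(D1) `D_u` preserves `V₁` and commutes with `red₁`** : `u, f ∈ V₁`, `θ (red₁ u) ≠ 0` ⟹
`D_u f ∈ V₁` and `red₁ (D_u f) · θ (red₁ u) = red₁ u · θ (red₁ f)` in `k((𝐪))`. -/
theorem mrtdD_gauss₁ (hpM : ¬ p ∣ M) (hA : A.LiesOverPrime p)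
    (u : modularFunctionFieldBar (M * p)) (hu : u ∈ grdO (M * p) A)
    (hθ : sqvtTheta (ResidueField A)
      ((grdRed (M * p) A ⟨u, hu⟩ : modularFunctionFieldFullC (ResidueField A) (M * p)) :
        LaurentSeries (ResidueField A)) ≠ 0)
    (f : modularFunctionFieldBar (M * p)) (hf : f ∈ grdO (M * p) A) :
    ∃ hD : mrtdD (M * p) u f ∈ grdO (M * p) A,
      ((grdRed (M * p) A ⟨mrtdD (M * p) u f, hD⟩ :
          modularFunctionFieldFullC (ResidueField A) (M * p)) : LaurentSeries (ResidueField A)) *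
        sqvtTheta (ResidueField A)
          ((grdRed (M * p) A ⟨u, hu⟩ : modularFunctionFieldFullC (ResidueField A) (M * p)) :
            LaurentSeries (ResidueField A)) =
      ((grdRed (M * p) A ⟨u, hu⟩ : modularFunctionFieldFullC (ResidueField A) (M * p)) :
          LaurentSeries (ResidueField A)) *
        sqvtTheta (ResidueField A)
          ((grdRed (M * p) A ⟨f, hf⟩ : modularFunctionFieldFullC (ResidueField A) (M * p)) :
            LaurentSeries (ResidueField A)) := by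
  obtain ⟨hDu, hredu⟩ := mrtdDj_gauss M A hpM hA u hu
  obtain ⟨hDf, hredf⟩ := mrtdDj_gauss M A hpM hA f hf
  have hinv := mrtdDj_inv_gauss M A hpM hA u hu hθ
  have hu0 := mrtdDj_ne_zero_of_red M A hpM hA u hu hθ
  have hD : mrtdD (M * p) u f ∈ grdO (M * p) A := by
    rw [mrtdD_apply]
    exact Subring.mul_mem _ (Subring.mul_mem _ hu hinv) hDf
  refine ⟨hD, ?_⟩
  -- the identity in `V₁`, then reduced
  have e : (⟨mrtdD (M * p) u f, hD⟩ : ↥(grdO (M * p) A)) * ⟨mrtdDj (M * p) u, hDu⟩ =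
      ⟨u, hu⟩ * ⟨mrtdDj (M * p) f, hDf⟩ := by
    apply Subtype.ext
    show mrtdD (M * p) u f * mrtdDj (M * p) u = u * mrtdDj (M * p) f
    rw [mrtdD_apply]
    field_simp
  have e2 := congrArg (fun z : modularFunctionFieldFullC (ResidueField A) (M * p) =>
    (z : LaurentSeries (ResidueField A))) (congrArg (grdRed (M * p) A) e)
  simp only [map_mul, MulMemClass.coe_mul] at e2
  rw [← hredu, ← hredf, ← mul_assoc, e2, mul_assoc]

/-- **(D2) `D_u` preserves `V₂ = w⁻¹ V₁` and commutes with `red₂ = red₁ ∘ w`**, for every ring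
automorphism `w` of `F` (e.g. the Atkin–Lehner involution `ttrW`) : `w u, w f ∈ V₁`,
`θ (red₁ (w u)) ≠ 0` ⟹ `w (D_u f) ∈ V₁` and
`red₁ (w (D_u f)) · θ (red₁ (w u)) = red₁ (w u) · θ (red₁ (w f))` in `k((𝐪))`. -/
theorem mrtdD_gauss₂ (hpM : ¬ p ∣ M) (hA : A.LiesOverPrime p)
    (w : modularFunctionFieldBar (M * p) ≃+* modularFunctionFieldBar (M * p))
    (u : modularFunctionFieldBar (M * p)) (hu : w u ∈ grdO (M * p) A)
    (hθ : sqvtTheta (ResidueField A)
      ((grdRed (M * p) A ⟨w u, hu⟩ : modularFunctionFieldFullC (ResidueField A) (M * p)) :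
        LaurentSeries (ResidueField A)) ≠ 0)
    (f : modularFunctionFieldBar (M * p)) (hf : w f ∈ grdO (M * p) A) :
    ∃ hD : w (mrtdD (M * p) u f) ∈ grdO (M * p) A,
      ((grdRed (M * p) A ⟨w (mrtdD (M * p) u f), hD⟩ :
          modularFunctionFieldFullC (ResidueField A) (M * p)) : LaurentSeries (ResidueField A)) *
        sqvtTheta (ResidueField A)
          ((grdRed (M * p) A ⟨w u, hu⟩ : modularFunctionFieldFullC (ResidueField A) (M * p)) :
            LaurentSeries (ResidueField A)) =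
      ((grdRed (M * p) A ⟨w u, hu⟩ : modularFunctionFieldFullC (ResidueField A) (M * p)) :
          LaurentSeries (ResidueField A)) *
        sqvtTheta (ResidueField A)
          ((grdRed (M * p) A ⟨w f, hf⟩ : modularFunctionFieldFullC (ResidueField A) (M * p)) :
            LaurentSeries (ResidueField A)) := by
  have hwu := mrtdDj_ne_zero_of_red M A hpM hA (w u) hu hθ
  have hc := mrtdD_conj (M * p) w u hwu f
  obtain ⟨hD, hred⟩ := mrtdD_gauss₁ M A hpM hA (w u) hu hθ (w f) hf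
  have hD' : w (mrtdD (M * p) u f) ∈ grdO (M * p) A := by rw [hc]; exact hD
  refine ⟨hD', ?_⟩
  have e : (⟨w (mrtdD (M * p) u f), hD'⟩ : ↥(grdO (M * p) A)) =
      ⟨mrtdD (M * p) (w u) (w f), hD⟩ := Subtype.ext hc
  rw [e]
  exact hred

end Gauss

end Fermat.Agent.MR
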