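import Mathlib
import Fermat.Agent.SQ.Val.Theta
import Fermat.Agent.SQ.Germ.CartierOrd
import Fermat.Agent.S24.PlaceOrd

/-!
# Program MR (S44), block `mrt` (THICK), sub-leaf `mrtd` (D3) : `D̄_ū = ū · θ/θū` ON THE SPECIAL FIBRE
DOES NOT LOWER THE ORDER AT A POINT WHERE `ū` IS A LOCAL PARAMETER (characteristic `p`)

Owner: helper17.  Namespace `Fermat.Agent.MR`, prefix `mrtd`.  Main untouched.

`k` a perfect field of characteristic `p`, `F_k ⊂ k((𝐪))` a subfield which is a function field of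
one variable over `k` (finite over `k(t)`), `θ = 𝐪 d/d𝐪 = sqvtTheta k`, `ν : F_k → ℤ` an
`ord`-function (`SqgcOrd`, the shape of `Place.ord` : `mrtd_sqgcOrd_place`), `ū ∈ F_k` with
`ν ū = 1`, and some `g ∈ F_k` with `θ g ≠ 0` (e.g. `j̄`).  Then (Program Q's `sqgc_ord_deriv` +
`p`-basis `1, ū, …, ū^(p-1)` of `F_k / F_k^p`) :

* `mrtd_theta_ne_zero` : `θ ū ≠ 0`   (the hypothesis `hθ` of `mrtdD_gauss₁/₂`);
* `mrtd_dbar_mem`      : `F_k` is stable under `(θ ū)⁻¹ · θ`;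
* `mrtd_ord_le`        : `ψ · θ ū = ū · θ φ`, `ψ ≠ 0`  ⟹  `ν φ ≤ ν ψ`, with equality if `p ∤ ν φ`
  (i.e. `ord_s (D̄_ū φ) ≥ ord_s φ` : helper7's field `g₁_ord`).
-/

set_option autoImplicit false
set_option linter.unusedSectionVars false
set_option linter.unusedVariables false
set_option linter.style.haveILetI false

noncomputable section

namespace Fermat.Agent.MR

open Polynomial IntermediateField Finset AlgebraicCurve Fermat.Agent.SQ Fermat.Agent.S24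

/-- `Place.ord` is an `ord`-function in the sense of Program Q. -/
theorem mrtd_sqgcOrd_place {K F : Type*} [Field K] [Field F] [Algebra K F] (v : Place K F) :
    SqgcOrd (v.ord) where
  map_mul a b ha hb := v.ord_mul ha hb
  map_add a b hab := PlaceOrd.min_le_ord_add v hab

section OrdP

variable {k : Type*} [Field k] (p : ℕ) [hp : Fact p.Prime] [CharP k p]
variable (Fk : IntermediateField k (LaurentSeries k))

/-- `θ` as a Leibniz map of `k((𝐪))` -/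
theorem mrtd_theta_leib : SqgcLeib (sqvtTheta k) := fun x y => sqvtTheta_mul k x y

theorem mrtd_charP_laurent : CharP (LaurentSeries k) p :=
  charP_of_injective_algebraMap (algebraMap k (LaurentSeries k)).injective p

theorem mrtd_charP_sub : CharP ↥Fk p :=
  charP_of_injective_algebraMap (algebraMap k ↥Fk).injective p

/-- `θ` of an element written in the `p`-basis `1, ū, …, ū^(p-1)` -/
theorem mrtd_theta_span (u : LaurentSeries k) (a : ℕ → LaurentSeries k) :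
    sqvtTheta k (∑ i ∈ range p, a i ^ p * u ^ i) =
      (∑ i ∈ range p, a i ^ p * ((i : LaurentSeries k) * u ^ (i - 1))) * sqvtTheta k u := by
  haveI := mrtd_charP_laurent (k := k) p
  rw [map_sum, Finset.sum_mul]
  refine Finset.sum_congr rfl fun i _ => ?_
  rw [sqvtTheta_mul, (mrtd_theta_leib (k := k)).map_pow_char p hp.out.ne_zero, zero_mul, zero_add,
    sqvt_leibniz_pow (sqvtTheta k) (sqvtTheta_mul k)]
  ring

variable {Fk}

/-- if `F_k = ⊕ F_k^p ū^i` and `θ ū = 0` then `θ` vanishes on `F_k`. -/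
theorem mrtd_theta_eq_zero_of_span (u : ↥Fk)
    (hspan : ∀ y : ↥Fk, ∃ a : ℕ → ↥Fk, y = ∑ i ∈ range p, a i ^ p * u ^ i)
    (hu : sqvtTheta k (u : LaurentSeries k) = 0) (y : ↥Fk) :
    sqvtTheta k (y : LaurentSeries k) = 0 := by
  obtain ⟨a, ha⟩ := hspan y
  have e : (y : LaurentSeries k) =
      ∑ i ∈ range p, (fun i => ((a i : ↥Fk) : LaurentSeries k)) i ^ p * (u : LaurentSeries k) ^ i := by
    rw [ha]
    push_cast
    rfl
  rw [e, mrtd_theta_span, hu, mul_zero]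

/-- if `F_k = ⊕ F_k^p ū^i` then `F_k` is stable under `(θ ū)⁻¹ · θ`. -/
theorem mrtd_dbar_mem (u : ↥Fk)
    (hspan : ∀ y : ↥Fk, ∃ a : ℕ → ↥Fk, y = ∑ i ∈ range p, a i ^ p * u ^ i) (y : ↥Fk) :
    (sqvtTheta k (u : LaurentSeries k))⁻¹ * sqvtTheta k (y : LaurentSeries k) ∈ Fk := by
  by_cases hu : sqvtTheta k (u : LaurentSeries k) = 0
  · rw [hu, inv_zero, zero_mul]
    exact zero_mem _
  obtain ⟨a, ha⟩ := hspan y
  have e : (y : LaurentSeries k) =
      ∑ i ∈ range p, (fun i => ((a i : ↥Fk) : LaurentSeries k)) i ^ p * (u : LaurentSeries k) ^ i := by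
    rw [ha]
    push_cast
    rfl
  rw [e, mrtd_theta_span, mul_comm, mul_assoc, mul_inv_cancel₀ hu, mul_one]
  refine sum_mem fun i _ => ?_
  exact mul_mem (pow_mem (a i).2 p) (mul_mem (_root_.natCast_mem Fk i) (pow_mem u.2 _))

/-- `D̄ = (θ ū)⁻¹ · θ` as an additive endomorphism of `F_k` (given the `p`-basis). -/
def mrtdDbar (u : ↥Fk)
    (hspan : ∀ y : ↥Fk, ∃ a : ℕ → ↥Fk, y = ∑ i ∈ range p, a i ^ p * u ^ i) : ↥Fk →+ ↥Fk where
  toFun y := ⟨(sqvtTheta k (u : LaurentSeries k))⁻¹ * sqvtTheta k (y : LaurentSeries k),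
    mrtd_dbar_mem p u hspan y⟩
  map_zero' := Subtype.ext (by push_cast; rw [map_zero, mul_zero])
  map_add' x y := Subtype.ext (by push_cast; rw [map_add, mul_add])

theorem mrtdDbar_coe (u : ↥Fk)
    (hspan : ∀ y : ↥Fk, ∃ a : ℕ → ↥Fk, y = ∑ i ∈ range p, a i ^ p * u ^ i) (y : ↥Fk) :
    ((mrtdDbar p u hspan y : ↥Fk) : LaurentSeries k) =
      (sqvtTheta k (u : LaurentSeries k))⁻¹ * sqvtTheta k (y : LaurentSeries k) := rfl

theorem mrtdDbar_leib (u : ↥Fk)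
    (hspan : ∀ y : ↥Fk, ∃ a : ℕ → ↥Fk, y = ∑ i ∈ range p, a i ^ p * u ^ i) :
    SqgcLeib (mrtdDbar p u hspan) := by
  intro x y
  apply Subtype.ext
  push_cast
  rw [mrtdDbar_coe, mrtdDbar_coe, mrtdDbar_coe]
  push_cast
  rw [sqvtTheta_mul]
  ring

/-- **(D3a)** : `ν` an `ord`-function on `F_k` with `ν ū = 1`, `g ∈ F_k` with `θ g ≠ 0` :
`θ ū ≠ 0`. -/
theorem mrtd_theta_ne_zero (p : ℕ) [hp : Fact p.Prime] [CharP k p] [PerfectField k]
    (t : ↥Fk) (ht : Transcendental k t) [FiniteDimensional k⟮t⟯ ↥Fk]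
    (ν : ↥Fk → ℤ) (hν : SqgcOrd ν) (u : ↥Fk) (hu0 : u ≠ 0) (hu : ν u = 1)
    (g : ↥Fk) (hg : sqvtTheta k (g : LaurentSeries k) ≠ 0) :
    sqvtTheta k (u : LaurentSeries k) ≠ 0 := by
  haveI := mrtd_charP_sub (k := k) p Fk
  intro h
  exact hg (mrtd_theta_eq_zero_of_span p u
    (sqgc_span_of_transcendental k p ht (hν.not_pow p hu0 hu)) h g)

/-- **(D3b)** : `ν` an `ord`-function on `F_k` with `ν ū = 1`, `g ∈ F_k` with `θ g ≠ 0`;
`φ, ψ ∈ F_k` with
`ψ · θ ū = ū · θ φ` (i.e. `ψ = D̄_ū φ`, `D̄_ū = ū · θ/θū`), `ψ ≠ 0` : then `ν φ ≤ ν ψ`, with equality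
if `p ∤ ν φ`. -/
theorem mrtd_ord_le (p : ℕ) [hp : Fact p.Prime] [CharP k p] [PerfectField k]
    (t : ↥Fk) (ht : Transcendental k t) [FiniteDimensional k⟮t⟯ ↥Fk]
    (ν : ↥Fk → ℤ) (hν : SqgcOrd ν) (u : ↥Fk) (hu0 : u ≠ 0) (hu : ν u = 1)
    (g : ↥Fk) (hg : sqvtTheta k (g : LaurentSeries k) ≠ 0) (φ ψ : ↥Fk) (hψ : ψ ≠ 0)
    (h : (ψ : LaurentSeries k) * sqvtTheta k (u : LaurentSeries k) =
      (u : LaurentSeries k) * sqvtTheta k (φ : LaurentSeries k)) :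
    ν φ ≤ ν ψ ∧ (¬ (p : ℤ) ∣ ν φ → ν ψ = ν φ) := by
  haveI := mrtd_charP_sub (k := k) p Fk
  have hspan := sqgc_span_of_transcendental k p ht (hν.not_pow p hu0 hu)
  have hψ' : (ψ : LaurentSeries k) ≠ 0 := fun h0 => hψ (Subtype.ext h0)
  have hθu : sqvtTheta k (u : LaurentSeries k) ≠ 0 :=
    mrtd_theta_ne_zero p t ht ν hν u hu0 hu g hg
  -- `ψ = ū · D̄ φ`
  have e : ψ = u * mrtdDbar p u hspan φ := by
    apply Subtype.ext
    push_cast
    rw [mrtdDbar_coe, ← mul_assoc, mul_comm (u : LaurentSeries k), mul_assoc, ← h]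
    field_simp
  have hφ0 : φ ≠ 0 := by
    rintro rfl
    apply hψ
    rw [e, map_zero, mul_zero]
  have hdφ : mrtdDbar p u hspan φ ≠ 0 := by
    intro h0
    apply hψ
    rw [e, h0, mul_zero]
  have hdu : mrtdDbar p u hspan u = 1 := by
    apply Subtype.ext
    rw [mrtdDbar_coe]
    push_cast
    exact inv_mul_cancel₀ hθu
  obtain ⟨h1, h2⟩ := sqgc_ord_deriv p hν hu hspan (mrtdDbar_leib p u hspan) hdu hφ0
  have hνψ : ν ψ = 1 + ν (mrtdDbar p u hspan φ) := by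
    rw [e, hν.map_mul u _ hu0 hdφ, hu]
  refine ⟨?_, fun hnd => ?_⟩
  · have := h1 hdφ
    rw [hνψ]
    omega
  · obtain ⟨-, h3⟩ := h2 hnd
    rw [hνψ, h3]
    ring

end OrdP

end Fermat.Agent.MR
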