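import Mathlib
import Fermat.Agent.SQ.Val.Theta
import Fermat.Agent.SQ.Germ.DerivRelAbs
import Fermat.Agent.S24.PlaceOrd

/-!
# Program MR (S44), block `mrt` (THICK), sub-leaf `mrtd` (D4) : A DERIVATION NORMALISED BY A LOCAL
PARAMETER PRESERVES THE VALUATION RING OF A RATIONAL PLACE (any characteristic), AND LOWERS THE
ORDER BY EXACTLY ONE IN CHARACTERISTIC `0`

Owner: helper17.  Namespace `Fermat.Agent.MR`, prefix `mrtd`.  Main untouched.  Purely algebraic
(no completion, no analytic embedding, valid at elliptic points).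

`v : Place K F` a RATIONAL place (`hrat` : every element of `𝒪_v` has a value in `K`), `t ∈ F` with
`ord_v t = 1`, `∂ : F →+ F` additive, Leibniz, killing `K`, `∂ t = 1`; every `x ∈ 𝒪_v` satisfies a
separable relation `Φ(t, x) = 0`, `Φ_Y(t, x) ≠ 0`, `Φ ∈ K[X][Y]` (`hrel`; Program Q's
`sqgxr_exists` produces it when `F` is algebraic over `K(t₀)` and `t` is transcendental).

* `mrtd_der_mem_aux` : induction on `m = ord_v Φ_Y(t, x)` : write `x = c + t z`; then
  `Φ(t, c + t Y) = t² Ψ(t, Y)` with `Ψ ∈ K[X][Y]`, `Ψ(t, z) = 0`, `ord_v Ψ_Y(t, z) = m - 1`;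
* **`mrtd_der_mem`** : `∂ 𝒪_v ⊆ 𝒪_v`;
* **`mrtd_ord_der`** : characteristic `0`, `x ≠ 0`, `ord_v x ≠ 0` ⟹ `ord_v (∂ x) = ord_v x - 1`;
* `mrtd_ord_der_of_unit` : the same for `D` with `D t` a unit at `v` (e.g. `D = D_u`, `t = u - u(R)`,
  `D t = u`) : `ord_v (D x) = ord_v x - 1`  (helper7's field `der_ann`).
-/

set_option autoImplicit false
set_option linter.unusedSectionVars false
set_option linter.unusedVariables false
set_option linter.style.haveILetI false

noncomputable section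

namespace Fermat.Agent.MR

open Polynomial IntermediateField AlgebraicCurve IsLocalRing Fermat.Agent.SQ Fermat.Agent.S24

section Place

variable {K F : Type*} [Field K] [Field F] [Algebra K F] (v : Place K F)

/-- an element of order one is irreducible in the valuation ring -/
theorem mrtd_irreducible_of_ord (t : F) (ht : v.ord t = 1) (htm : t ∈ v.toValuationSubring) :
    Irreducible (⟨t, htm⟩ : ↥v.toValuationSubring) := by
  obtain ⟨π, hπ⟩ := IsDiscreteValuationRing.exists_irreducible v.toValuationSubring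
  have ht0 : t ≠ 0 := by
    rintro rfl
    rw [v.ord_zero] at ht
    exact zero_ne_one ht
  obtain ⟨u, hu⟩ := v.exists_unit_mul_zpow ht0 hπ
  rw [ht, zpow_one] at hu
  have e : (⟨t, htm⟩ : ↥v.toValuationSubring) = (u : ↥v.toValuationSubring) * π :=
    Subtype.ext hu
  rw [e]
  exact (irreducible_units_mul u).mpr hπ

variable {v}

/-- evaluation of `Φ ∈ K[X][Y]` at `(t, y)` inside the valuation ring -/
def mrtdEvO (t : ↥v.toValuationSubring) (y : ↥v.toValuationSubring) (Φ : K[X][X]) :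
    ↥v.toValuationSubring :=
  Φ.eval₂ ((aeval (R := K) t : K[X] →ₐ[K] ↥v.toValuationSubring) : K[X] →+* ↥v.toValuationSubring) y

theorem mrtdEvO_coe (t y : ↥v.toValuationSubring) (Φ : K[X][X]) :
    ((mrtdEvO t y Φ : ↥v.toValuationSubring) : F) = sqvtEv (t : F) (y : F) Φ := by
  unfold mrtdEvO
  have h := Polynomial.hom_eval₂ Φ
    ((aeval (R := K) t : K[X] →ₐ[K] ↥v.toValuationSubring) : K[X] →+* ↥v.toValuationSubring)
    (v.toValuationSubring.subtype) y
  rw [sqvtEv_apply]
  have hc : (v.toValuationSubring.subtype).comp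
      ((aeval (R := K) t : K[X] →ₐ[K] ↥v.toValuationSubring) : K[X] →+* ↥v.toValuationSubring) =
      (aeval (R := K) (t : F)).toRingHom := by
    ext a
    · simp only [RingHom.coe_comp, Function.comp_apply, RingHom.coe_coe, aeval_C,
        AlgHom.toRingHom_eq_coe]
      rfl
    · simp only [RingHom.coe_comp, Function.comp_apply, RingHom.coe_coe, aeval_X,
        AlgHom.toRingHom_eq_coe]
      rfl
  rw [← hc]
  exact h

/-- `t^n ∣ a(t)` in the valuation ring ⟹ `X^n ∣ a` in `K[X]` (`t` irreducible). -/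
theorem mrtd_X_pow_dvd (t : ↥v.toValuationSubring) (hirr : Irreducible t) (n : ℕ) :
    ∀ a : K[X], t ^ n ∣ aeval (R := K) t a → X ^ n ∣ a := by
  induction n with
  | zero => intro a _; rw [pow_zero]; exact one_dvd _
  | succ n ih =>
    intro a h
    have ht0 : t ≠ 0 := hirr.ne_zero
    have ha := divX_mul_X_add a
    have hev : aeval (R := K) t a =
        aeval (R := K) t a.divX * t + algebraMap K ↥v.toValuationSubring (a.coeff 0) := by
      conv_lhs => rw [← ha]
      rw [map_add, map_mul, aeval_X, aeval_C]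
    have h1 : t ∣ aeval (R := K) t a := dvd_trans (dvd_pow_self t (Nat.succ_ne_zero n)) h
    have h2 : t ∣ algebraMap K ↥v.toValuationSubring (a.coeff 0) := by
      rw [hev] at h1
      exact (dvd_add_right (dvd_mul_left t _)).mp h1
    have hc0 : a.coeff 0 = 0 := by
      by_contra hne
      have hu : IsUnit (algebraMap K ↥v.toValuationSubring (a.coeff 0)) :=
        (IsUnit.mk0 _ hne).map _
      exact hirr.not_isUnit (isUnit_of_dvd_unit h2 hu)
    rw [hc0, map_zero, add_zero] at hev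
    rw [hev, pow_succ] at h
    have h3 : t ^ n ∣ aeval (R := K) t a.divX := (mul_dvd_mul_iff_right ht0).mp h
    obtain ⟨b, hb⟩ := ih a.divX h3
    refine ⟨b, ?_⟩
    rw [hc0, map_zero, add_zero] at ha
    rw [← ha, hb, pow_succ]
    ring

/-- **the induction** : `Φ(t, x) = 0`, `Φ_Y(t, x) = t^m · unit` ⟹ `∂ x ∈ 𝒪_v`. -/
theorem mrtd_der_mem_aux (t : ↥v.toValuationSubring) (hirr : Irreducible t)
    (hrat : ∀ x : ↥v.toValuationSubring, ∃ c : K,
      x - algebraMap K ↥v.toValuationSubring c ∈ maximalIdeal ↥v.toValuationSubring)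
    (D : F →+ F) (hD : ∀ a b, D (a * b) = D a * b + a * D b)
    (hc : ∀ c : K, D (algebraMap K F c) = 0) (hDt : D (t : F) = 1) (m : ℕ) :
    ∀ (x : ↥v.toValuationSubring) (Φ : K[X][X]), mrtdEvO t x Φ = 0 →
      (∃ ε : (↥v.toValuationSubring)ˣ, mrtdEvO t x (derivative Φ) = t ^ m * ε) →
      D (x : F) ∈ v.toValuationSubring := by
  have ht0 : t ≠ 0 := hirr.ne_zero
  induction m with
  | zero =>
    rintro x Φ h0 ⟨ε, hε⟩
    have hchain := sqvt_chain D hD hc (t : F) (x : F) Φ
    rw [← mrtdEvO_coe, ← mrtdEvO_coe, ← mrtdEvO_coe, h0, hε, pow_zero, one_mul, hDt, mul_one] at hchain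
    have h1 : D ((0 : ↥v.toValuationSubring) : F) = 0 := by push_cast; exact map_zero D
    rw [h1] at hchain
    have hεinv : ((ε : ↥v.toValuationSubring) : F) * ((ε⁻¹ : (↥v.toValuationSubring)ˣ) :
        ↥v.toValuationSubring) = 1 := by
      rw [← MulMemClass.coe_mul, ε.mul_inv]
      rfl
    have e : D (x : F) = -((mrtdEvO t x (sqvtDX Φ) : ↥v.toValuationSubring) : F) *
        (((ε⁻¹ : (↥v.toValuationSubring)ˣ) : ↥v.toValuationSubring) : F) := by
      have h2 : ((ε : ↥v.toValuationSubring) : F) * D (x : F) =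
          -((mrtdEvO t x (sqvtDX Φ) : ↥v.toValuationSubring) : F) := by
        rw [eq_neg_iff_add_eq_zero, add_comm]
        exact hchain.symm
      calc D (x : F) = (((ε : ↥v.toValuationSubring) : F) *
            (((ε⁻¹ : (↥v.toValuationSubring)ˣ) : ↥v.toValuationSubring) : F)) * D (x : F) := by
            rw [hεinv, one_mul]
        _ = (((ε : ↥v.toValuationSubring) : F) * D (x : F)) *
            (((ε⁻¹ : (↥v.toValuationSubring)ˣ) : ↥v.toValuationSubring) : F) := by ring
        _ = _ := by rw [h2]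
    rw [e]
    exact v.toValuationSubring.mul_mem _ _ (v.toValuationSubring.neg_mem _ (SetLike.coe_mem _))
      (SetLike.coe_mem _)
  | succ m ih =>
    rintro x Φ h0 ⟨ε, hε⟩
    set φ : K[X] →+* ↥v.toValuationSubring :=
      ((aeval (R := K) t : K[X] →ₐ[K] ↥v.toValuationSubring) : K[X] →+* ↥v.toValuationSubring)
      with hφ
    have hφX : φ X = t := by rw [hφ]; simp
    have hφC : ∀ c : K, φ (C c) = algebraMap K ↥v.toValuationSubring c := fun c => by
      rw [hφ]; simp
    have hevO : ∀ (y : ↥v.toValuationSubring) (Ψ : K[X][X]), mrtdEvO t y Ψ = Ψ.eval₂ φ y :=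
      fun y Ψ => rfl
    -- `x = c + t z`
    obtain ⟨c, hcx⟩ := hrat x
    rw [hirr.maximalIdeal_eq, Ideal.mem_span_singleton'] at hcx
    obtain ⟨z, hz⟩ := hcx
    set cO : ↥v.toValuationSubring := algebraMap K ↥v.toValuationSubring c with hcO
    have hx : x = cO + t * z := by rw [mul_comm, hz]; ring
    -- the outer polynomial over `𝒪_v`
    set G : (↥v.toValuationSubring)[X] := Φ.map φ with hG
    have hGx : G.eval x = 0 := by rw [hG, eval_map, ← hevO]; exact h0
    have hG'x : (derivative G).eval x = t ^ (m + 1) * ε := by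
      rw [hG, derivative_map, eval_map, ← hevO]; exact hε
    set a₀ : K[X] := Φ.eval (C c) with ha₀
    set a₁ : K[X] := (derivative Φ).eval (C c) with ha₁
    have hφa₀ : φ a₀ = G.eval cO := by
      rw [hG, eval_map, hcO, ← hφC, eval₂_at_apply]
    have hφa₁ : φ a₁ = (derivative G).eval cO := by
      rw [hG, derivative_map, eval_map, hcO, ← hφC, eval₂_at_apply]
    -- `t ∣ a₁(t)` and `t² ∣ a₀(t)`
    have hd₁ : t ^ 1 ∣ aeval (R := K) t a₁ := by
      obtain ⟨z₁, hz₁⟩ := evalSubFactor (derivative G) cO x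
      have e : aeval (R := K) t a₁ = φ a₁ := rfl
      rw [e, hφa₁, pow_one]
      have h2 : (derivative G).eval cO = t ^ (m + 1) * ε + z₁ * (cO - x) := by
        rw [← hz₁, hG'x]; ring
      rw [h2, hx]
      refine ⟨t ^ m * ε - z₁ * z, ?_⟩
      ring
    have hd₀ : t ^ 2 ∣ aeval (R := K) t a₀ := by
      obtain ⟨k, hk⟩ := binomExpansion G x (cO - x)
      have e : aeval (R := K) t a₀ = φ a₀ := rfl
      rw [e, hφa₀]
      have h2 : G.eval cO = t ^ (m + 1) * ε * (cO - x) + k * (cO - x) ^ 2 := by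
        have : x + (cO - x) = cO := by ring
        rw [this, hGx, hG'x, zero_add] at hk
        exact hk
      rw [h2, hx]
      refine ⟨-(t ^ m * ε * z) + k * z ^ 2, ?_⟩
      ring
    obtain ⟨b₁, hb₁⟩ := mrtd_X_pow_dvd t hirr 1 a₁ hd₁
    obtain ⟨b₀, hb₀⟩ := mrtd_X_pow_dvd t hirr 2 a₀ hd₀
    -- the formal expansion of `Φ(X, c + X Y)`
    set q : K[X][X] := C (C c) + C X * X with hq
    obtain ⟨kk, hkk⟩ := binomExpansion (Φ.map (C : K[X] →+* K[X][X])) (C (C c)) (C X * X)
    have hcomp : Φ.comp q = C (X ^ 2) * (C b₀ + C b₁ * X + kk * X ^ 2) := by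
      have e1 : (Φ.map (C : K[X] →+* K[X][X])).eval (C (C c) + C X * X) = Φ.comp q := by
        rw [eval_map]; rfl
      have e2 : (Φ.map (C : K[X] →+* K[X][X])).eval (C (C c)) = C a₀ := by
        rw [eval_map, eval₂_at_apply]
      have e3 : (derivative (Φ.map (C : K[X] →+* K[X][X]))).eval (C (C c)) = C a₁ := by
        rw [derivative_map, eval_map, eval₂_at_apply]
      rw [e1, e2, e3, hb₀, hb₁] at hkk
      rw [hkk]
      simp only [map_mul, map_pow, pow_one]
      ring
    -- evaluation at `(t, z)`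
    have hqz : q.eval₂ φ z = x := by
      rw [hq, eval₂_add, eval₂_C, eval₂_mul, eval₂_C, eval₂_X, hφC, hφX, hx]
    set Ψ : K[X][X] := C b₀ + C b₁ * X + kk * X ^ 2 with hΨ
    have hΨz : mrtdEvO t z Ψ = 0 := by
      have h1 : (Φ.comp q).eval₂ φ z = 0 := by
        rw [eval₂_comp, hqz, ← hevO]; exact h0
      rw [hcomp, eval₂_mul, eval₂_C, map_pow, hφX] at h1
      rcases mul_eq_zero.mp h1 with h2 | h2
      · exact absurd h2 (pow_ne_zero 2 ht0)
      · exact h2
    have hΨ'z : mrtdEvO t z (derivative Ψ) = t ^ m * ε := by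
      have hdq : derivative q = C X := by
        rw [hq, derivative_add, derivative_C, derivative_C_mul, derivative_X, mul_one, zero_add]
      have h1 : (derivative (Φ.comp q)).eval₂ φ z = t * (t ^ (m + 1) * ε) := by
        rw [derivative_comp, hdq, eval₂_mul, eval₂_C, hφX, eval₂_comp, hqz, ← hevO, hε]
      rw [hcomp, derivative_C_mul, eval₂_mul, eval₂_C, map_pow, hφX] at h1
      have h2 : t ^ 2 * mrtdEvO t z (derivative Ψ) = t ^ 2 * (t ^ m * ε) := by
        rw [hevO, h1]; ring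
      exact mul_left_cancel₀ (pow_ne_zero 2 ht0) h2
    have hDz := ih z Ψ hΨz ⟨ε, hΨ'z⟩
    -- `∂ x = z + t ∂ z`
    have hxF : (x : F) = algebraMap K F c + (t : F) * (z : F) := by
      rw [hx]; push_cast; rfl
    rw [hxF, map_add, hc, zero_add, hD, hDt, one_mul]
    exact v.toValuationSubring.add_mem _ _ z.2 (v.toValuationSubring.mul_mem _ _ t.2 hDz)

variable (v)

/-- **(D4a) `∂ 𝒪_v ⊆ 𝒪_v`** : `v` a rational place, `ord_v t = 1`, `∂` additive Leibniz killing `K`
with `∂ t = 1`, every element of `𝒪_v` satisfying a separable relation over `K[t]`. -/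
theorem mrtd_der_mem (t : F) (ht : v.ord t = 1)
    (hrat : ∀ x ∈ v.toValuationSubring, ∃ c : K,
      x - algebraMap K F c ∈ v.toValuationSubring.nonunits)
    (hrel : ∀ x ∈ v.toValuationSubring, ∃ Φ : K[X][X], sqvtEv t x Φ = 0 ∧
      sqvtEv t x (derivative Φ) ≠ 0)
    (D : F →+ F) (hD : ∀ a b, D (a * b) = D a * b + a * D b)
    (hc : ∀ c : K, D (algebraMap K F c) = 0) (hDt : D t = 1)
    (x : F) (hx : x ∈ v.toValuationSubring) : D x ∈ v.toValuationSubring := by
  have htm : t ∈ v.toValuationSubring := PlaceOrd.mem_of_ord_nonneg v (by rw [ht]; norm_num)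
  have hirr := mrtd_irreducible_of_ord v t ht htm
  have hratO : ∀ y : ↥v.toValuationSubring, ∃ c : K,
      y - algebraMap K ↥v.toValuationSubring c ∈ maximalIdeal ↥v.toValuationSubring := by
    intro y
    obtain ⟨c, hcy⟩ := hrat y y.2
    refine ⟨c, ?_⟩
    obtain ⟨hmem, hmax⟩ := (ValuationSubring.mem_nonunits_iff_exists_mem_maximalIdeal).mp hcy
    have e : (⟨(y : F) - algebraMap K F c, hmem⟩ : ↥v.toValuationSubring) =
        y - algebraMap K ↥v.toValuationSubring c := Subtype.ext rfl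
    rwa [e] at hmax
  obtain ⟨Φ, hΦ0, hΦ1⟩ := hrel x hx
  have h0 : mrtdEvO (⟨t, htm⟩ : ↥v.toValuationSubring) ⟨x, hx⟩ Φ = 0 :=
    Subtype.ext (by rw [mrtdEvO_coe]; exact hΦ0)
  have h1 : mrtdEvO (⟨t, htm⟩ : ↥v.toValuationSubring) ⟨x, hx⟩ (derivative Φ) ≠ 0 := by
    intro h
    apply hΦ1
    have := congrArg (fun z : ↥v.toValuationSubring => (z : F)) h
    simpa [mrtdEvO_coe] using this
  obtain ⟨m, ε, hε⟩ := IsDiscreteValuationRing.eq_unit_mul_pow_irreducible h1 hirr
  exact mrtd_der_mem_aux ⟨t, htm⟩ hirr hratO D hD hc hDt m ⟨x, hx⟩ Φ h0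
    ⟨ε, by rw [hε, mul_comm]⟩

/-- **(D4b)** characteristic `0` : `ord_v (∂ x) = ord_v x - 1` for `x ≠ 0` with `ord_v x > 0`. -/
theorem mrtd_ord_der [CharZero K] (t : F) (ht : v.ord t = 1)
    (hrat : ∀ x ∈ v.toValuationSubring, ∃ c : K,
      x - algebraMap K F c ∈ v.toValuationSubring.nonunits)
    (hrel : ∀ x ∈ v.toValuationSubring, ∃ Φ : K[X][X], sqvtEv t x Φ = 0 ∧
      sqvtEv t x (derivative Φ) ≠ 0)
    (D : F →+ F) (hD : ∀ a b, D (a * b) = D a * b + a * D b)
    (hc : ∀ c : K, D (algebraMap K F c) = 0) (hDt : D t = 1)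
    (x : F) (hx0 : x ≠ 0) (hx : 0 < v.ord x) : v.ord (D x) = v.ord x - 1 := by
  have htm : t ∈ v.toValuationSubring := PlaceOrd.mem_of_ord_nonneg v (by rw [ht]; norm_num)
  have hirr := mrtd_irreducible_of_ord v t ht htm
  have ht0 : t ≠ 0 := by
    rintro rfl
    rw [v.ord_zero] at ht
    exact zero_ne_one ht
  obtain ⟨u, hu⟩ := v.exists_unit_mul_zpow hx0 hirr
  obtain ⟨n, hn⟩ : ∃ n : ℕ, v.ord x = (n : ℤ) + 1 := ⟨(v.ord x - 1).toNat, by omega⟩
  have hxu : x = ((u : ↥v.toValuationSubring) : F) * t ^ (n + 1) := by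
    rw [hu, hn]
    norm_cast
  have hDu : D ((u : ↥v.toValuationSubring) : F) ∈ v.toValuationSubring :=
    mrtd_der_mem v t ht hrat hrel D hD hc hDt _ (u : ↥v.toValuationSubring).2
  -- `D x = t^n · y`, `y = t · D u + (n+1) · u`
  set y : F := t * D ((u : ↥v.toValuationSubring) : F) +
    ((n + 1 : ℕ) : F) * ((u : ↥v.toValuationSubring) : F) with hy
  have hDx : D x = t ^ n * y := by
    rw [hxu, hD, sqvt_leibniz_pow D hD, hDt, Nat.add_sub_cancel, hy]
    push_cast
    ring
  -- `y` is a unit of `𝒪_v`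
  have hym : y ∈ v.toValuationSubring :=
    v.toValuationSubring.add_mem _ _ (v.toValuationSubring.mul_mem _ _ htm hDu)
      (v.toValuationSubring.mul_mem _ _ (by
        have : ((n + 1 : ℕ) : F) = algebraMap K F ((n + 1 : ℕ) : K) := by
          rw [map_natCast]
        rw [this]
        exact v.algebraMap_mem' _) (u : ↥v.toValuationSubring).2)
  have hyu : IsUnit (⟨y, hym⟩ : ↥v.toValuationSubring) := by
    by_contra hnu
    have hmax : (⟨y, hym⟩ : ↥v.toValuationSubring) ∈ maximalIdeal ↥v.toValuationSubring :=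
      (mem_maximalIdeal _).mpr hnu
    have htmax : (⟨t, htm⟩ : ↥v.toValuationSubring) * ⟨_, hDu⟩ ∈
        maximalIdeal ↥v.toValuationSubring :=
      Ideal.mul_mem_right _ _ ((mem_maximalIdeal _).mpr hirr.not_isUnit)
    have hsub := Ideal.sub_mem _ hmax htmax
    have hnK : ((n + 1 : ℕ) : K) ≠ 0 := Nat.cast_ne_zero.mpr (Nat.succ_ne_zero n)
    have hcu : IsUnit (algebraMap K ↥v.toValuationSubring ((n + 1 : ℕ) : K) *
        (u : ↥v.toValuationSubring)) :=
      ((IsUnit.mk0 _ hnK).map _).mul u.isUnit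
    apply (mem_maximalIdeal _).mp hsub
    have e : (⟨y, hym⟩ : ↥v.toValuationSubring) - ⟨t, htm⟩ * ⟨_, hDu⟩ =
        algebraMap K ↥v.toValuationSubring ((n + 1 : ℕ) : K) * (u : ↥v.toValuationSubring) := by
      apply Subtype.ext
      push_cast
      rw [hy]
      push_cast
      ring
    rw [e]
    exact hcu
  have hy0 : y ≠ 0 := by
    rintro h0
    have : (⟨y, hym⟩ : ↥v.toValuationSubring) = 0 := Subtype.ext h0
    rw [this] at hyu
    exact not_isUnit_zero hyu
  have hordy : v.ord y = 0 := by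
    have := v.ord_coe_unit hyu.unit
    simpa using this
  rw [hDx, v.ord_mul (pow_ne_zero n ht0) hy0, hordy, hn, ← zpow_natCast, v.ord_zpow, ht]
  ring

/-- **(D4c)** the same for a derivation `D` with `D t` a unit at `v` (e.g. `D = D_u`,
`t = u - u(R)`, `D t = u`) : `ord_v (D x) = ord_v x - 1`. -/
theorem mrtd_ord_der_of_unit [CharZero K] (t : F) (ht : v.ord t = 1)
    (hrat : ∀ x ∈ v.toValuationSubring, ∃ c : K,
      x - algebraMap K F c ∈ v.toValuationSubring.nonunits)
    (hrel : ∀ x ∈ v.toValuationSubring, ∃ Φ : K[X][X], sqvtEv t x Φ = 0 ∧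
      sqvtEv t x (derivative Φ) ≠ 0)
    (D : F →+ F) (hD : ∀ a b, D (a * b) = D a * b + a * D b)
    (hc : ∀ c : K, D (algebraMap K F c) = 0) (hDt0 : D t ≠ 0) (hDt : v.ord (D t) = 0)
    (x : F) (hx0 : x ≠ 0) (hx : 0 < v.ord x) : v.ord (D x) = v.ord x - 1 := by
  set s : F := D t with hs
  let D' : F →+ F := (AddMonoidHom.mulLeft s⁻¹).comp D
  have hD'a : ∀ y, D' y = s⁻¹ * D y := fun y => rfl
  have h1 := mrtd_ord_der v t ht hrat hrel D'
    (fun a b => by rw [hD'a, hD'a, hD'a, hD]; ring)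
    (fun c => by rw [hD'a, hc, mul_zero])
    (by rw [hD'a]; exact inv_mul_cancel₀ hDt0) x hx0 hx
  have hDx : D x = s * D' x := by
    rw [hD'a, ← mul_assoc, mul_inv_cancel₀ hDt0, one_mul]
  by_cases hD'0 : D' x = 0
  · -- impossible : `ord (D' x) = ord x - 1` and `D' x = 0` force `ord x = 1`, fine; then `D x = 0`
    rw [hD'0, v.ord_zero] at h1
    rw [hDx, hD'0, mul_zero, v.ord_zero]
    exact h1
  · rw [hDx, v.ord_mul hDt0 hD'0, hDt, zero_add]
    exact h1

end Place

end Fermat.Agent.MR
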