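import Mathlib
import Fermat.Agent.MR.Thick.Deriv
import Fermat.Agent.MR.Thick.DerivOrd
import Fermat.Agent.MR.Thick.DerivPlace
import Fermat.Agent.MR.CartierSq
import Fermat.Agent.TT.Red2.Red2All
import Fermat.Agent.G.Red.Val
import Fermat.Agent.S18.V.DegreeDown

/-!
# Program MR (S44), block `mrt` (THICK), sub-leaf `mrtd` : THE `mrtd`-FIELDS OF `MrtThickData` /
`mrt_thick_of_mrs` AT THE TT MODEL, for `D = D_u = mrtdD (M * p) u`

Owner: helper17.  Namespace `Fermat.Agent.MR`, prefix `mrtd`.  Main untouched.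

`V₁ = ttrV1 M 𝔸 hpM h𝔸`, `V₂ = ttraV2 M 𝔸 hpM h𝔸 = W⁻¹ V₁` (`W = ttrW M hpM`), `red₁ = ttraRed1`,
`red₂ = ttraRed2 = red₁ ∘ W`, `F_k = modularFunctionFieldFullC k M`, `k = 𝔸/𝔪`.
Inputs = fields of helper29's `MrsNode` (`u_unit`, `u_ord`, `mul`, `kap_ne`, `w_unit`, `w_ord`,
`cen_val`, `cen_simple`), nothing else.

* `mrtdFun_add/_mul/_const`        : `D = fun x => mrtdD (M * p) u x` is additive, Leibniz, kills `ℚ̄`
  (helper7's `D_add`, `D_mul`, `D_const`);
* **`mrtd_inst_g₁`**  : `u ∈ V₁`, `ord_{Q₁} (red₁ u) = 1`, `f ∈ V₁`, `θ (red₁ f) ≠ 0` ⟹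
  `g₁ := D f ∈ V₁`, `red₁ g₁ ≠ 0`, `ord_{Q₁} (red₁ f) ≤ ord_{Q₁} (red₁ g₁)`
  (fields `g₁`, `g₁_eq`, `g₁_red`, `g₁_ord`; `mrtd_theta_red_sub_const` gives `θ (red₁ (J - j₀)) ≠ 0`);
* **`mrtd_inst_cartier`** : `u w = κ ≠ 0`, `w ∈ V₂`, `ord_{Q₂} (red₂ w) = 1`, `Y, Rm ∈ V₂`,
  `θ (red₂ Y) ≠ 0` ⟹ `DY := D Y ∈ V₂`, `DR := D Rm ∈ V₂` and
  `red₂ Y ^ (p-1) * red₂ DY + red₂ DR ≠ 0` (fields `DY`, `DY_eq`, `DR`, `DR_eq`, `cartier`;
  helper18's `mrca_sqvt_ne_zero`);
* **`mrtd_inst_der_ann`** : `R` a place with `u(R) = a₀ ≠ 0`, `ord_R (u - a₀) = 1`, `x ∈ 𝔪_R`,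
  `x ≠ 0` ⟹ `ord_R (D x) = ord_R x - 1` (field `der_ann` with `x = J - a`, `D x = D J`).
-/

set_option autoImplicit false
set_option linter.unusedSectionVars false
set_option linter.unusedVariables false
set_option linter.style.haveILetI false
set_option synthInstance.maxHeartbeats 400000

noncomputable section

namespace Fermat.Agent.MR

open Polynomial ModularCurve AlgebraicCurve IsLocalRing IntermediateField Fermat.Agent.S24
  Fermat.Agent.G Fermat.Agent.S18 Fermat.Agent.SS Fermat.Agent.SQ Fermat.Agent.TT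

local notation "Qb" => AlgebraicClosure ℚ

attribute [local instance] mrtd_neZero

/-! ## The derivation as a plain function -/

section Fun

variable (N : ℕ) [NeZero N] (u : modularFunctionFieldBar N)

theorem mrtdFun_add (x y : modularFunctionFieldBar N) :
    mrtdD N u (x + y) = mrtdD N u x + mrtdD N u y := map_add _ _ _

theorem mrtdFun_mul (x y : modularFunctionFieldBar N) :
    mrtdD N u (x * y) = x * mrtdD N u y + y * mrtdD N u x := by
  rw [mrtdD_mul]; ring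

theorem mrtdFun_const (a : Qb) : mrtdD N u (algebraMap Qb (modularFunctionFieldBar N) a) = 0 :=
  mrtdD_algebraMap N u a

theorem mrtdFun_sub_const (x : modularFunctionFieldBar N) (a : Qb) :
    mrtdD N u (x - algebraMap Qb (modularFunctionFieldBar N) a) = mrtdD N u x := by
  rw [map_sub, mrtdD_algebraMap, sub_zero]

end Fun

/-! ## `der_ann` -/

section Ann

variable (N : ℕ) [NeZero N]

/-- an element with nonzero order at some place is transcendental over the (algebraically closed)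
constants -/
theorem mrtd_transcendental_of_ord {K F : Type*} [Field K] [Field F] [Algebra K F] [IsAlgClosed K]
    (v : Place K F) (t : F) (ht : v.ord t ≠ 0) : Transcendental K t := by
  intro halg
  have hint : IsIntegral K t := halg.isIntegral
  have hdeg : (minpoly K t).degree = 1 :=
    IsAlgClosed.degree_eq_one_of_irreducible K (minpoly.irreducible hint)
  obtain ⟨c, hc⟩ := minpoly.mem_range_of_degree_eq_one K t hdeg
  rw [← hc] at ht
  exact ht (PlaceOrd.ord_algebraMap v c)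

/-- **(field `der_ann`)** `R` a place of `F_ℚ̄(N)` with `u(R) = a₀ ≠ 0` and `u - a₀` a uniformiser at
`R`; `x ∈ 𝔪_R`, `x ≠ 0` : `ord_R (D_u x) = ord_R x - 1`. -/
theorem mrtd_inst_der_ann (u : modularFunctionFieldBar N)
    (R : Place Qb (modularFunctionFieldBar N)) (a₀ : Qb) (ha₀ : a₀ ≠ 0)
    (hsimple : R.ord (u - algebraMap Qb (modularFunctionFieldBar N) a₀) = 1)
    (x : modularFunctionFieldBar N) (hx0 : x ≠ 0) (hx : x ∈ R.toValuationSubring.nonunits) :
    R.ord (mrtdD N u x) = R.ord x - 1 := by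
  set t : modularFunctionFieldBar N := u - algebraMap Qb (modularFunctionFieldBar N) a₀ with ht
  have htr : Transcendental Qb t :=
    mrtd_transcendental_of_ord R t (by rw [hsimple]; norm_num)
  have hjtr : Transcendental Qb (jBar N) := (isSepGen_jBar N).transcendental
  haveI := (isSepGen_jBar N).finite
  haveI : Algebra.IsAlgebraic ↥Qb⟮jBar N⟯ ↥(modularFunctionFieldBar N) :=
    Algebra.IsAlgebraic.of_finite _ _
  -- `θ u ≠ 0`
  have hDt : mrtdDj N t ≠ 0 := by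
    intro h0
    have hrel := sqgxr_exists (E := Qb) (jBar N) hjtr t (jBar N) htr
    obtain ⟨Φ, hΦ0, hΦ1⟩ := hrel
    have hchain := sqvt_chain (mrtdDj N) (mrtdDj_mul N) (mrtdDj_algebraMap N) t (jBar N) Φ
    rw [sqvtEv_apply, sqvtEv_apply, sqvtEv_apply] at hchain
    have e : ((aeval (R := Qb) t : Qb[X] →ₐ[Qb] ↥(modularFunctionFieldBar N)) :
        Qb[X] →+* ↥(modularFunctionFieldBar N)) = (aeval (R := Qb) t).toRingHom := rfl
    rw [e] at hΦ0 hΦ1
    rw [hΦ0, map_zero, h0, mul_zero, zero_add, mrtdDj_j, mul_one] at hchain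
    exact hΦ1 hchain.symm
  have hDu : mrtdDj N u ≠ 0 := by
    have : mrtdDj N t = mrtdDj N u := by
      rw [ht, map_sub, mrtdDj_algebraMap, sub_zero]
    rwa [this] at hDt
  -- `u` is a unit at `R`
  have hu_eq : u = algebraMap Qb (modularFunctionFieldBar N) a₀ + t := by rw [ht]; ring
  have ht0 : t ≠ 0 := by
    rintro h0
    rw [h0, R.ord_zero] at hsimple
    exact zero_ne_one hsimple
  have hu0 : u ≠ 0 := by
    intro h0
    exact hDu (by rw [h0, map_zero])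
  have hordu : R.ord u = 0 := by
    have ha₀' : algebraMap Qb (modularFunctionFieldBar N) a₀ ≠ 0 :=
      (_root_.map_ne_zero _).mpr ha₀
    have h1 : algebraMap Qb (modularFunctionFieldBar N) a₀ ∈ R.toValuationSubring :=
      R.algebraMap_mem' a₀
    have h2 : (algebraMap Qb (modularFunctionFieldBar N) a₀)⁻¹ ∈ R.toValuationSubring := by
      rw [← map_inv₀]; exact R.algebraMap_mem' _
    have htm : t ∈ R.toValuationSubring :=
      PlaceOrd.mem_of_ord_nonneg R (by rw [hsimple]; norm_num)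
    have hum : u ∈ R.toValuationSubring := by
      rw [hu_eq]; exact R.toValuationSubring.add_mem _ _ h1 htm
    -- `u⁻¹ ∈ 𝒪_R` : otherwise `u ∈ 𝔪_R`, so `a₀ = u - t ∈ 𝔪_R`
    rw [PlaceOrd.ord_eq_zero_iff R hu0]
    refine ⟨hum, ?_⟩
    by_contra hinv
    have hpos : 0 < R.ord u := (PlaceOrd.ord_pos_iff R hu0).mpr hinv
    have hsub : 0 < R.ord (u - t) := by
      refine PlaceOrd.ord_sub_pos_of_pos R hpos (by rw [hsimple]; norm_num) ?_
      rw [hu_eq]; simpa using ha₀'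
    have : u - t = algebraMap Qb (modularFunctionFieldBar N) a₀ := by rw [hu_eq]; ring
    rw [this, PlaceOrd.ord_algebraMap] at hsub
    exact lt_irrefl _ hsub
  -- the hypotheses of (D4)
  have hrat : ∀ y ∈ R.toValuationSubring, ∃ c : Qb,
      y - algebraMap Qb (modularFunctionFieldBar N) c ∈ R.toValuationSubring.nonunits :=
    fun y hy => grdg_val_exists (isSepGen_jBar N) R hy
  have hrel : ∀ y ∈ R.toValuationSubring, ∃ Φ : Qb[X][X], sqvtEv t y Φ = 0 ∧
      sqvtEv t y (derivative Φ) ≠ 0 := by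
    intro y _
    obtain ⟨Φ, h1, h2⟩ := sqgxr_exists (E := Qb) (jBar N) hjtr t y htr
    exact ⟨Φ, h1, h2⟩
  have hDtu : mrtdD N u t = u := by
    rw [ht, map_sub, mrtdD_algebraMap, sub_zero, mrtdD_self N u hDu]
  have hxpos : 0 < R.ord x := by
    rw [PlaceOrd.ord_pos_iff R hx0]
    intro hinv
    have h1 : x ∈ R.toValuationSubring.nonunits := hx
    rw [ValuationSubring.mem_nonunits_iff_exists_mem_maximalIdeal] at h1
    obtain ⟨hxm, hmax⟩ := h1
    apply (mem_maximalIdeal _).mp hmax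
    refine IsUnit.of_mul_eq_one ⟨x⁻¹, hinv⟩ ?_
    apply Subtype.ext
    simp [hx0]
  exact mrtd_ord_der_of_unit R t hsimple hrat hrel (mrtdD N u) (mrtdD_mul N u)
    (mrtdD_algebraMap N u) (by rw [hDtu]; exact hu0) (by rw [hDtu]; exact hordu) x hx0 hxpos

/-- **(field `der_ann`, literal shape)** : `J` non-constant, `R` a place with `u(R) = a₀ ≠ 0` and
`u - a₀` a uniformiser at `R`; for every `a` with `J(R) = a` :
`ord_R (D_u J) = ord_R (J - a) - 1`. -/
theorem mrtd_inst_der_ann_J (u J : modularFunctionFieldBar N)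
    (hJ : ∀ a : Qb, J ≠ algebraMap Qb (modularFunctionFieldBar N) a)
    (R : Place Qb (modularFunctionFieldBar N)) (a₀ : Qb) (ha₀ : a₀ ≠ 0)
    (hsimple : R.ord (u - algebraMap Qb (modularFunctionFieldBar N) a₀) = 1)
    (a : Qb) (ha : J - algebraMap Qb (modularFunctionFieldBar N) a ∈
      R.toValuationSubring.nonunits) :
    R.ord (mrtdD N u J) = R.ord (J - algebraMap Qb (modularFunctionFieldBar N) a) - 1 := by
  rw [← mrtdFun_sub_const N u J a]
  exact mrtd_inst_der_ann N u R a₀ ha₀ hsimple _ (sub_ne_zero.mpr (hJ a)) ha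

end Ann

/-! ## The fields at the TT model -/

section Inst

variable (M : ℕ) [NeZero M] {p : ℕ} [Fact p.Prime] [NeZero p] (A : ValuationSubring Qb)

/-- `red₁` of a constant of `𝔸` -/
theorem mrtd_red₁_const (hpM : ¬ p ∣ M) (hA : A.LiesOverPrime p) (a : A)
    (h : algebraMap Qb (modularFunctionFieldBar (M * p)) (a : Qb) ∈ ttrV1 M A hpM hA) :
    ttraRed1 M A hpM hA ⟨algebraMap Qb (modularFunctionFieldBar (M * p)) (a : Qb), h⟩ =
      algebraMap (ResidueField A) ↥(modularFunctionFieldFullC (ResidueField A) M)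
        (residue A a) := by
  apply Subtype.ext
  rw [IntermediateField.coe_algebraMap_apply]
  have h1 := ttrRed1_coe M A hA ⟨algebraMap Qb (modularFunctionFieldBar (M * p)) (a : Qb),
      grdO_algebraMap_mem (M * p) A a⟩
  rw [grdRed_algebraMap, IntermediateField.coe_algebraMap_apply] at h1
  exact h1

/-- `red₁ (x - a) = red₁ x - ā` for a constant `a ∈ 𝔸` -/
theorem mrtd_red₁_sub_const (hpM : ¬ p ∣ M) (hA : A.LiesOverPrime p)
    (x : modularFunctionFieldBar (M * p)) (hx : x ∈ ttrV1 M A hpM hA) (a : Qb) (ha : a ∈ A)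
    (hxa : x - algebraMap Qb (modularFunctionFieldBar (M * p)) a ∈ ttrV1 M A hpM hA) :
    ttraRed1 M A hpM hA ⟨x - algebraMap Qb (modularFunctionFieldBar (M * p)) a, hxa⟩ =
      ttraRed1 M A hpM hA ⟨x, hx⟩ -
        algebraMap (ResidueField A) ↥(modularFunctionFieldFullC (ResidueField A) M)
          (residue A ⟨a, ha⟩) := by
  have hc : algebraMap Qb (modularFunctionFieldBar (M * p)) ((⟨a, ha⟩ : A) : Qb) ∈
      ttrV1 M A hpM hA := grdO_algebraMap_mem (M * p) A ⟨a, ha⟩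
  have e : (⟨x - algebraMap Qb (modularFunctionFieldBar (M * p)) a, hxa⟩ :
      ↥(ttrV1 M A hpM hA)) = ⟨x, hx⟩ -
        ⟨algebraMap Qb (modularFunctionFieldBar (M * p)) ((⟨a, ha⟩ : A) : Qb), hc⟩ :=
    Subtype.ext rfl
  rw [e, map_sub, mrtd_red₁_const M A hpM hA ⟨a, ha⟩ hc]

/-- `θ (red₁ (x - a)) = θ (red₁ x)` for a constant `a ∈ 𝔸` -/
theorem mrtd_theta_red_sub_const (hpM : ¬ p ∣ M) (hA : A.LiesOverPrime p)
    (x : modularFunctionFieldBar (M * p)) (hx : x ∈ ttrV1 M A hpM hA) (a : Qb) (ha : a ∈ A)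
    (hxa : x - algebraMap Qb (modularFunctionFieldBar (M * p)) a ∈ ttrV1 M A hpM hA) :
    sqvtTheta (ResidueField A)
      ((ttraRed1 M A hpM hA ⟨x - algebraMap Qb (modularFunctionFieldBar (M * p)) a, hxa⟩ :
        ↥(modularFunctionFieldFullC (ResidueField A) M)) : LaurentSeries (ResidueField A)) =
    sqvtTheta (ResidueField A)
      ((ttraRed1 M A hpM hA ⟨x, hx⟩ :
        ↥(modularFunctionFieldFullC (ResidueField A) M)) : LaurentSeries (ResidueField A)) := by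
  rw [mrtd_red₁_sub_const M A hpM hA x hx a ha hxa]
  have e : ((algebraMap (ResidueField A) ↥(modularFunctionFieldFullC (ResidueField A) M)
      (residue A ⟨a, ha⟩) : ↥(modularFunctionFieldFullC (ResidueField A) M)) :
        LaurentSeries (ResidueField A)) =
      algebraMap (ResidueField A) (LaurentSeries (ResidueField A)) (residue A ⟨a, ha⟩) := rfl
  rw [AddSubgroupClass.coe_sub, map_sub, e, sqvtTheta_algebraMap, sub_zero]

/-- `θ (red₁ J) = θ j̄ ≠ 0` -/
theorem mrtd_theta_red_J (hpM : ¬ p ∣ M) (hA : A.LiesOverPrime p) :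
    sqvtTheta (ResidueField A)
      ((ttraRed1 M A hpM hA ⟨ttrJ M A, ttrJ_mem M A⟩ :
        ↥(modularFunctionFieldFullC (ResidueField A) M)) : LaurentSeries (ResidueField A)) ≠ 0 := by
  show sqvtTheta (ResidueField A)
      ((ttrRed1 M A hA ⟨ttrJ M A, ttrJ_mem M A⟩ :
        ↥(modularFunctionFieldFullC (ResidueField A) M)) : LaurentSeries (ResidueField A)) ≠ 0
  rw [ttrRed1_J]
  exact sqgvThJ_ne_zero (ResidueField A)

/-- `θ (red₂ Y) = θ j̄ ≠ 0` -/
theorem mrtd_theta_red_Y (hpM : ¬ p ∣ M) (hA : A.LiesOverPrime p)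
    (hY : ttrY M A (p := p) ∈ ttraV2 M A hpM hA) :
    sqvtTheta (ResidueField A)
      ((ttraRed2 M A hpM hA ⟨ttrY M A, hY⟩ :
        ↥(modularFunctionFieldFullC (ResidueField A) M)) : LaurentSeries (ResidueField A)) ≠ 0 := by
  have e : ttraRed2 M A hpM hA ⟨ttrY M A, hY⟩ =
      ttrRed1 M A hA ⟨ttrJ M A, ttrJ_mem M A⟩ := by
    show ttrRed1 M A hA ⟨ttrW M hpM (ttrY M A), _⟩ = _
    congr 1
    exact Subtype.ext (ttrW_Y M A hpM)
  rw [e]
  exact mrtd_theta_red_J M A hpM hA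

/-- the reduction `ū` of a function with `ord_Q ū = 1` has `θ ū ≠ 0` -/
theorem mrtd_theta_red_ne_zero (hpM : ¬ p ∣ M) (hA : A.LiesOverPrime p)
    (Q : Place (ResidueField A) ↥(modularFunctionFieldFullC (ResidueField A) M))
    (ub : ↥(modularFunctionFieldFullC (ResidueField A) M)) (hord : Q.ord ub = 1) :
    ub ≠ 0 ∧ sqvtTheta (ResidueField A) (ub : LaurentSeries (ResidueField A)) ≠ 0 := by
  haveI : CharP (ResidueField A) p := ttr_charP A hA
  haveI : IsAlgClosed (ResidueField A) := grd_isAlgClosed_residue A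
  have hsep := s18v_isSepGen_res (ℓ := p) (ResidueField A) M hpM
  haveI := hsep.finite
  have hub0 : ub ≠ 0 := by
    intro h
    rw [h, Q.ord_zero] at hord
    exact zero_ne_one hord
  exact ⟨hub0, mrtd_theta_ne_zero p _ hsep.transcendental Q.ord (mrtd_sqgcOrd_place Q) ub hub0 hord
    ⟨jqModC (ResidueField A), jqModC_mem_full (ResidueField A) M⟩
    (sqgvThJ_ne_zero (ResidueField A))⟩

/-- **(fields `g₁`, `g₁_eq`, `g₁_red`, `g₁_ord`)** : `u, f ∈ V₁`, `ord_{Q₁} (red₁ u) = 1`,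
`θ (red₁ f) ≠ 0` : `g₁ := D_u f ∈ V₁`, `red₁ g₁ ≠ 0` and
`ord_{Q₁} (red₁ f) ≤ ord_{Q₁} (red₁ g₁)`, with equality if `p ∤ ord_{Q₁} (red₁ f)`. -/
theorem mrtd_inst_g₁ (hpM : ¬ p ∣ M) (hA : A.LiesOverPrime p)
    (Q₁ : Place (ResidueField A) ↥(modularFunctionFieldFullC (ResidueField A) M))
    (u : modularFunctionFieldBar (M * p)) (hu : u ∈ ttrV1 M A hpM hA)
    (hord : Q₁.ord (ttraRed1 M A hpM hA ⟨u, hu⟩) = 1)
    (f : modularFunctionFieldBar (M * p)) (hf : f ∈ ttrV1 M A hpM hA)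
    (hθf : sqvtTheta (ResidueField A)
      ((ttraRed1 M A hpM hA ⟨f, hf⟩ : ↥(modularFunctionFieldFullC (ResidueField A) M)) :
        LaurentSeries (ResidueField A)) ≠ 0) :
    ∃ g₁ : ↥(ttrV1 M A hpM hA),
      (g₁ : modularFunctionFieldBar (M * p)) = mrtdD (M * p) u f ∧
      ttraRed1 M A hpM hA g₁ ≠ 0 ∧
      Q₁.ord (ttraRed1 M A hpM hA ⟨f, hf⟩) ≤ Q₁.ord (ttraRed1 M A hpM hA g₁) ∧
      (¬ (p : ℤ) ∣ Q₁.ord (ttraRed1 M A hpM hA ⟨f, hf⟩) →
        Q₁.ord (ttraRed1 M A hpM hA g₁) = Q₁.ord (ttraRed1 M A hpM hA ⟨f, hf⟩)) := by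
  haveI : CharP (ResidueField A) p := ttr_charP A hA
  haveI : IsAlgClosed (ResidueField A) := grd_isAlgClosed_residue A
  have hsep := s18v_isSepGen_res (ℓ := p) (ResidueField A) M hpM
  haveI := hsep.finite
  obtain ⟨hub0, hθu⟩ := mrtd_theta_red_ne_zero M A hpM hA Q₁ _ hord
  have hθu' : sqvtTheta (ResidueField A)
      ((grdRed (M * p) A ⟨u, hu⟩ : modularFunctionFieldFullC (ResidueField A) (M * p)) :
        LaurentSeries (ResidueField A)) ≠ 0 := by
    rw [← ttrRed1_coe M A hA]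
    exact hθu
  obtain ⟨hD, hred⟩ := mrtdD_gauss₁ M A hpM hA u hu hθu' f hf
  rw [← ttrRed1_coe M A hA, ← ttrRed1_coe M A hA, ← ttrRed1_coe M A hA] at hred
  have hg0 : ttraRed1 M A hpM hA ⟨mrtdD (M * p) u f, hD⟩ ≠ 0 := by
    intro h0
    have h1 : ((ttrRed1 M A hA ⟨mrtdD (M * p) u f, hD⟩ :
        ↥(modularFunctionFieldFullC (ResidueField A) M)) : LaurentSeries (ResidueField A)) = 0 := by
      have := congrArg Subtype.val h0
      exact this
    rw [h1, zero_mul] at hred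
    have hub0' : ((ttrRed1 M A hA ⟨u, hu⟩ :
        ↥(modularFunctionFieldFullC (ResidueField A) M)) : LaurentSeries (ResidueField A)) ≠ 0 :=
      fun h => hub0 (Subtype.ext h)
    exact (mul_ne_zero hub0' hθf) hred.symm
  refine ⟨⟨mrtdD (M * p) u f, hD⟩, rfl, hg0, ?_⟩
  exact mrtd_ord_le p _ hsep.transcendental Q₁.ord (mrtd_sqgcOrd_place Q₁)
    (ttraRed1 M A hpM hA ⟨u, hu⟩) hub0 hord
    ⟨jqModC (ResidueField A), jqModC_mem_full (ResidueField A) M⟩
    (sqgvThJ_ne_zero (ResidueField A)) (ttraRed1 M A hpM hA ⟨f, hf⟩)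
    (ttraRed1 M A hpM hA ⟨mrtdD (M * p) u f, hD⟩) hg0 hred

/-- **(fields `g₁`, `g₁_eq`, `g₁_red`, `g₁_ord`, literal shape)** : `f = J - j₀`, `j₀ ∈ 𝔸`,
`g₁ = D_u J`. -/
theorem mrtd_inst_g₁_J (hpM : ¬ p ∣ M) (hA : A.LiesOverPrime p)
    (Q₁ : Place (ResidueField A) ↥(modularFunctionFieldFullC (ResidueField A) M))
    (u : modularFunctionFieldBar (M * p)) (hu : u ∈ ttrV1 M A hpM hA)
    (hord : Q₁.ord (ttraRed1 M A hpM hA ⟨u, hu⟩) = 1)
    (J : modularFunctionFieldBar (M * p)) (hJ : J ∈ ttrV1 M A hpM hA)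
    (hθJ : sqvtTheta (ResidueField A)
      ((ttraRed1 M A hpM hA ⟨J, hJ⟩ : ↥(modularFunctionFieldFullC (ResidueField A) M)) :
        LaurentSeries (ResidueField A)) ≠ 0)
    (j0 : Qb) (hj0 : j0 ∈ A)
    (J_mem₁ : J - algebraMap Qb (modularFunctionFieldBar (M * p)) j0 ∈ ttrV1 M A hpM hA) :
    ∃ g₁ : ↥(ttrV1 M A hpM hA),
      (g₁ : modularFunctionFieldBar (M * p)) = mrtdD (M * p) u J ∧
      ttraRed1 M A hpM hA g₁ ≠ 0 ∧
      Q₁.ord (ttraRed1 M A hpM hA
        ⟨J - algebraMap Qb (modularFunctionFieldBar (M * p)) j0, J_mem₁⟩) ≤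
        Q₁.ord (ttraRed1 M A hpM hA g₁) := by
  have hθ := mrtd_theta_red_sub_const M A hpM hA J hJ j0 hj0 J_mem₁
  obtain ⟨g₁, h1, h2, h3, -⟩ := mrtd_inst_g₁ M A hpM hA Q₁ u hu hord _ J_mem₁
    (by rw [hθ]; exact hθJ)
  exact ⟨g₁, by rw [h1, mrtdFun_sub_const], h2, h3⟩

/-- `red₂ x = red₁ (W x)` as Laurent series -/
theorem mrtd_red₂_coe (hpM : ¬ p ∣ M) (hA : A.LiesOverPrime p) (x : ↥(ttraV2 M A hpM hA)) :
    ((ttraRed2 M A hpM hA x : ↥(modularFunctionFieldFullC (ResidueField A) M)) :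
      LaurentSeries (ResidueField A)) =
    ((grdRed (M * p) A ⟨ttrW M hpM (x : modularFunctionFieldBar (M * p)), ttal_mem_V2.mp x.2⟩ :
      ↥(modularFunctionFieldFullC (ResidueField A) (M * p))) : LaurentSeries (ResidueField A)) := by
  rw [← ttrRed1_coe M A hA]
  rfl

/-- **(fields `DY`, `DY_eq`, `DR`, `DR_eq`, `cartier`)** : `u w = κ ≠ 0`, `w ∈ V₂`,
`ord_{Q₂} (red₂ w) = 1`, `Y, Rm ∈ V₂`, `θ (red₂ Y) ≠ 0` : `DY := D_u Y ∈ V₂`, `DR := D_u Rm ∈ V₂` and
`red₂ Y ^ (p - 1) * red₂ DY + red₂ DR ≠ 0`. -/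
theorem mrtd_inst_cartier (hpM : ¬ p ∣ M) (hA : A.LiesOverPrime p)
    (Q₂ : Place (ResidueField A) ↥(modularFunctionFieldFullC (ResidueField A) M))
    (u w : modularFunctionFieldBar (M * p)) (κ : Qb)
    (hmul : u * w = algebraMap Qb (modularFunctionFieldBar (M * p)) κ) (hκ : κ ≠ 0)
    (hw : w ∈ ttraV2 M A hpM hA)
    (hord : Q₂.ord (ttraRed2 M A hpM hA ⟨w, hw⟩) = 1)
    (Y Rm : ↥(ttraV2 M A hpM hA))
    (hθY : sqvtTheta (ResidueField A)
      ((ttraRed2 M A hpM hA Y : ↥(modularFunctionFieldFullC (ResidueField A) M)) :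
        LaurentSeries (ResidueField A)) ≠ 0) :
    ∃ DY DR : ↥(ttraV2 M A hpM hA),
      (DY : modularFunctionFieldBar (M * p)) =
        mrtdD (M * p) u (Y : modularFunctionFieldBar (M * p)) ∧
      (DR : modularFunctionFieldBar (M * p)) =
        mrtdD (M * p) u (Rm : modularFunctionFieldBar (M * p)) ∧
      ttraRed2 M A hpM hA Y ^ (p - 1) * ttraRed2 M A hpM hA DY + ttraRed2 M A hpM hA DR ≠ 0 := by
  haveI : CharP (ResidueField A) p := ttr_charP A hA
  have hWw : ttrW M hpM w ∈ grdO (M * p) A := ttal_mem_V2.mp hw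
  obtain ⟨hwb0, hθw⟩ := mrtd_theta_red_ne_zero M A hpM hA Q₂ _ hord
  rw [mrtd_red₂_coe M A hpM hA ⟨w, hw⟩] at hθw
  have hwb0' : ((grdRed (M * p) A ⟨ttrW M hpM w, hWw⟩ :
      ↥(modularFunctionFieldFullC (ResidueField A) (M * p))) : LaurentSeries (ResidueField A)) ≠ 0 := by
    intro h
    apply hwb0
    apply Subtype.ext
    rw [mrtd_red₂_coe M A hpM hA ⟨w, hw⟩]
    exact h
  rw [mrtd_red₂_coe M A hpM hA Y] at hθY
  -- `D_w` preserves `V₂`
  obtain ⟨hDY, hredY⟩ := mrtdD_gauss₂ M A hpM hA (ttrW M hpM) w hWw hθw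
    (Y : modularFunctionFieldBar (M * p)) (ttal_mem_V2.mp Y.2)
  obtain ⟨hDR, hredR⟩ := mrtdD_gauss₂ M A hpM hA (ttrW M hpM) w hWw hθw
    (Rm : modularFunctionFieldBar (M * p)) (ttal_mem_V2.mp Rm.2)
  -- `D_u = - D_w`
  have hw0 : w ≠ 0 := by
    rintro rfl
    rw [mul_zero] at hmul
    exact hκ ((map_eq_zero (algebraMap Qb (modularFunctionFieldBar (M * p)))).mp hmul.symm)
  have hDjw : mrtdDj (M * p) w ≠ 0 :=
    mrtdDj_ne_zero_of_conj (M * p) (ttrW M hpM) w
      (mrtdDj_ne_zero_of_red M A hpM hA (ttrW M hpM w) hWw hθw)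
  have hu_eq : u = algebraMap Qb (modularFunctionFieldBar (M * p)) κ * w⁻¹ := by
    rw [← hmul, mul_assoc, mul_inv_cancel₀ hw0, mul_one]
  have hneg : ∀ f : modularFunctionFieldBar (M * p),
      mrtdD (M * p) u f = - mrtdD (M * p) w f := fun f => by
    rw [hu_eq]
    exact mrtdD_inv (M * p) w hDjw hw0 κ hκ f
  have hmemY : mrtdD (M * p) u (Y : modularFunctionFieldBar (M * p)) ∈ ttraV2 M A hpM hA := by
    rw [hneg]
    exact neg_mem (ttal_mem_V2.mpr hDY)
  have hmemR : mrtdD (M * p) u (Rm : modularFunctionFieldBar (M * p)) ∈ ttraV2 M A hpM hA := by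
    rw [hneg]
    exact neg_mem (ttal_mem_V2.mpr hDR)
  refine ⟨⟨_, hmemY⟩, ⟨_, hmemR⟩, rfl, rfl, ?_⟩
  intro h0
  have h1 := congrArg (fun z : ↥(modularFunctionFieldFullC (ResidueField A) M) =>
    (z : LaurentSeries (ResidueField A))) h0
  simp only [AddMemClass.coe_add, MulMemClass.coe_mul, SubmonoidClass.coe_pow,
    ZeroMemClass.coe_zero] at h1
  rw [mrtd_red₂_coe M A hpM hA Y, mrtd_red₂_coe M A hpM hA ⟨_, hmemY⟩,
    mrtd_red₂_coe M A hpM hA ⟨_, hmemR⟩] at h1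
  -- the reductions of `D_u Y`, `D_u Rm` are minus those of `D_w Y`, `D_w Rm`
  have eY : (⟨ttrW M hpM (mrtdD (M * p) u (Y : modularFunctionFieldBar (M * p))),
      ttal_mem_V2.mp hmemY⟩ : ↥(grdO (M * p) A)) =
      - ⟨ttrW M hpM (mrtdD (M * p) w (Y : modularFunctionFieldBar (M * p))), hDY⟩ := by
    apply Subtype.ext
    show ttrW M hpM _ = - ttrW M hpM _
    rw [hneg, map_neg]
  have eR : (⟨ttrW M hpM (mrtdD (M * p) u (Rm : modularFunctionFieldBar (M * p))),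
      ttal_mem_V2.mp hmemR⟩ : ↥(grdO (M * p) A)) =
      - ⟨ttrW M hpM (mrtdD (M * p) w (Rm : modularFunctionFieldBar (M * p))), hDR⟩ := by
    apply Subtype.ext
    show ttrW M hpM _ = - ttrW M hpM _
    rw [hneg, map_neg]
  rw [eY, eR, map_neg, map_neg, NegMemClass.coe_neg, NegMemClass.coe_neg] at h1
  -- multiply by `θ w̄`
  have h2 := congrArg (fun z => z * sqvtTheta (ResidueField A)
    ((grdRed (M * p) A ⟨ttrW M hpM w, hWw⟩ :
      ↥(modularFunctionFieldFullC (ResidueField A) (M * p))) : LaurentSeries (ResidueField A))) h1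
  simp only [zero_mul, add_mul, mul_neg, neg_mul, mul_assoc] at h2
  rw [hredY, hredR] at h2
  have h3 := mrca_sqvt_ne_zero (ResidueField A) p _
    ((grdRed (M * p) A ⟨ttrW M hpM (Rm : modularFunctionFieldBar (M * p)), ttal_mem_V2.mp Rm.2⟩ :
      ↥(modularFunctionFieldFullC (ResidueField A) (M * p))) : LaurentSeries (ResidueField A)) hθY
  apply mul_ne_zero hwb0' h3
  linear_combination (-1 : LaurentSeries (ResidueField A)) * h2

end Inst

end Fermat.Agent.MR
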