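import Mathlib
import Fermat.Prelude.Def_AlgebraicCurve_DivisorClassGroup

/-!
# Program MR (S44), block `mrt` (THICK) : `p ∤ e_s`  --  SPEC (owner helper7)

One node `s` of the two-valuation model of `X₀(M p)` at `p` (`p ∤ M`, `p ≥ 5`):
`K = ℚ̄ ⊃ 𝔸`, `F = F_ℚ̄(M p)`, `O₁ O₂ ⊂ F` the two Gauss rings, `redᵢ : Oᵢ → F_k` the reductions,
`u = u_s`, `w = w_s`, `u w = κ_s`, `E = v(κ_s) = e • v(p)`  (block `mrk`);
`Ann` = the places of `F / K` centred at the node (the open annulus `0 < v(u) < E`),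
`ν R = v(u(R))` the depth of `R ∈ Ann`  (blocks `mrn`, `mrs`).

## The argument (blueprint 4136(D), checked 4139), in the form assembled here

`f := J - j̃₀` (`j̃₀ ∈ {0, 1728}` exactly at an elliptic node, any lift of `j(s)` otherwise),
`g := D J`, `D` the derivation of `F / K` with `D u = u`.

* (SLOPE, block `mrs`) for `h ∈ Fˣ`, `cᵢ h ∈ Oᵢˣ`, `T ⊇` the zeros and poles of `h` in `Ann` :
  `v c₁ - v c₂ = ord_s(red₁ (c₁ h)) • E - ∑_{R ∈ T} ord_R h • (E - ν R)`;  used for `f` and `g` only.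
* (T-DER, `mrtd`)  `D J ∈ O₁`, `D Y, D Rm ∈ O₂` with their reductions (FLAT form: no residue
  derivation appears, only the three elements `g₁`, `DY`, `DR`);
  in the annulus `ord_R (D J) = ord_R (J - J(R)) - 1`;  on `C₁`, `ord_s (red₁ (D J)) ≥ ord_s (j̄ - j₀)`.
* (KRON, `mrk`) `J = Y ^ p + p R`, `Y, R ∈ O₂`;  (CARTIER, `mrca` + `mrtd`)
  `Ȳ^(p-1) red₂ (D Y) + red₂ (D Rm) ≠ 0`;  hence `g = p · (unit of O₂)`.
* (T-RAM, `mrtr`) in the annulus `ord_R (J - J(R)) ≤ 3`, and `≥ 2` only if `J(R) = j̃₀`.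

Then `v(p) = (r' - r) E + ∑_{R : J(R) = j̃₀} (E - ν R)` and `r E = ∑ m_R (E - ν R) ≤ 3 v(p)`,
i.e. **`r * e ≤ 3`**, with `r = ord_s (j̄ - j₀) ≥ 1`.   NOTE: `p ∤ r` is NOT needed (only
`r' = ord_s (D̄₁ j̄) ≥ r`), so no information on the ramification of `j̄` in characteristic `p`
enters; `p ≥ 5` is used only for `0 ≢ 1728 (mod p)` inside (T-RAM) and for `3 < p` at the end.

Everything below is a `Prop`-valued definition (NO proofs here); the assembly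
`mrt_thick : MrtThickData … → r * e ≤ 3` lives in `MR/Thick/Main.lean`.
-/

set_option autoImplicit false

noncomputable section

namespace Fermat.Agent.MR

open AlgebraicCurve

/-! ### (T-ARITH) the arithmetic leaf -/

/-- (T-ARITH) : `r • E ≤ 3 • vp` from the two slope identities.  `n R = ord_R f ∈ {0,…,3}`,
`c R = E - ν R ≥ 0`, `ord_R g = n R - 1` if `n R ≥ 1` and `0` otherwise. -/
def MrtArithSpec : Prop :=
  ∀ (Γ : Type) [AddCommGroup Γ] [LinearOrder Γ] [IsOrderedAddMonoid Γ]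
    (ι : Type) (Z : Finset ι) (n : ι → ℤ) (c : ι → Γ) (r r' : ℤ) (E vp : Γ),
    (∀ R ∈ Z, 0 ≤ n R ∧ n R ≤ 3) → (∀ R ∈ Z, 0 ≤ c R) → r ≤ r' → 0 ≤ E →
    r • E = ∑ R ∈ Z, n R • c R →
    vp = r' • E - ∑ R ∈ Z, (if 1 ≤ n R then n R - 1 else 0) • c R →
    r • E ≤ (3 : ℤ) • vp

/-! ### (SLOPE) the form consumed from `mrs` (helper29), for ONE function -/

section Slope

variable {K F k F₁ F₂ Γ : Type*} [Field K] [Field F] [Algebra K F] [Field k] [Field F₁]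
  [Algebra k F₁] [Field F₂] [Algebra k F₂] [AddCommGroup Γ] [LinearOrder Γ] [IsOrderedAddMonoid Γ]

/-- the slope formula at the node for the function `h`, normalised by `c₁` at `V₁` and by `c₂`
at `V₂`, with `T` a finite set of places of the annulus containing all zeros and poles of `h`
there :  `V₂ h - V₁ h = v c₁ - v c₂ = ord_s (red₁ (c₁ h)) • E - ∑_{R ∈ T} ord_R h • (E - ν R)`. -/
def MrtSlopeFor (v : K → Γ) (O₁ O₂ : ValuationSubring F) (red₁ : ↥O₁ →+* F₁) (red₂ : ↥O₂ →+* F₂)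
    (s₁ : Place k F₁) (Ann : Set (Place K F)) (ν : Place K F → Γ) (E : Γ)
    (h : F) (c₁ c₂ : K) : Prop :=
  ∀ (x₁ : ↥O₁) (x₂ : ↥O₂) (T : Finset (Place K F)),
    (x₁ : F) = algebraMap K F c₁ * h → red₁ x₁ ≠ 0 →
    (x₂ : F) = algebraMap K F c₂ * h → red₂ x₂ ≠ 0 →
    (∀ R ∈ T, R ∈ Ann) → (∀ R ∈ Ann, R.ord h ≠ 0 → R ∈ T) →
    v c₁ - v c₂ = s₁.ord (red₁ x₁) • E - ∑ R ∈ T, R.ord h • (E - ν R)

end Slope

/-! ### The data of (THICK) at one node : every field is a hypothesis with a named supplier -/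

/-- ALL inputs of (THICK) at one node (v2 : FLAT, no residue derivations; two residue fields
`F₁`, `F₂` as in `MR/Slope/Spec.lean`).  Suppliers : `mrk` (helper25) = `e, hE, Y, Rm, kron`;
`mrs` (helper29) = `slope_f, slope_g`, `Ann`, `ν`, `depth`;  `mrtd` (helper17) = `D` and `g₁, DY,
DR` with their equations, `g₁_ord`, `der_ann`;  `mrca` (helper18) + `mrtd` = `g₁_red`, `cartier`;
`mrtr` (helper8) = `ram`;  landed TT = `O₁ O₂ red₁ red₂` and the units `f_red₁`, `f_red₂`. -/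
structure MrtThickData (K F k F₁ F₂ Γ : Type*) [Field K] [Field F] [Algebra K F] [Field k]
    [Field F₁] [Algebra k F₁] [Field F₂] [Algebra k F₂]
    [AddCommGroup Γ] [LinearOrder Γ] [IsOrderedAddMonoid Γ] where
  /-- the residue characteristic -/
  p : ℕ
  /-- `p ≠ 0` in `K` -/
  p_ne : (p : K) ≠ 0
  /-- the additive valuation of `𝔸` on `Kˣ` (value at `0` irrelevant) -/
  v : K → Γ
  v_mul : ∀ a b : K, a ≠ 0 → b ≠ 0 → v (a * b) = v a + v b
  vp_pos : 0 < v (p : K)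
  /-- the two Gauss rings and their reductions -/
  O₁ : ValuationSubring F
  O₂ : ValuationSubring F
  red₁ : ↥O₁ →+* F₁
  red₂ : ↥O₂ →+* F₂
  /-- the node as a place of `C₁`, the annulus, the depths, the thickness `E = e • v p` -/
  s₁ : Place k F₁
  Ann : Set (Place K F)
  ν : Place K F → Γ
  E : Γ
  e : ℕ
  hE : E = e • v (p : K)
  depth : ∀ R ∈ Ann, ν R ≤ E
  /-- the functions : `J`, the lift `j̃₀` of `j(s)`, Kronecker `J = Y ^ p + p Rm` at `V₂` -/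
  J : F
  j0 : K
  J_mem₁ : J - algebraMap K F j0 ∈ O₁
  J_mem₂ : J - algebraMap K F j0 ∈ O₂
  Y : ↥O₂
  Rm : ↥O₂
  kron : J = (Y : F) ^ p + (p : F) * (Rm : F)
  /-- `f = J - j̃₀` is a unit at both Gauss valuations, `r = ord_s (j̄ - j₀)` -/
  f_red₁ : red₁ ⟨J - algebraMap K F j0, J_mem₁⟩ ≠ 0
  f_red₂ : red₂ ⟨J - algebraMap K F j0, J_mem₂⟩ ≠ 0
  r : ℕ
  hr : s₁.ord (red₁ ⟨J - algebraMap K F j0, J_mem₁⟩) = r
  /-- the derivation `D = D_u` of `F / K` (additive, Leibniz, kills the constants) -/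
  D : F → F
  D_add : ∀ x y : F, D (x + y) = D x + D y
  D_mul : ∀ x y : F, D (x * y) = x * D y + y * D x
  D_const : ∀ a : K, D (algebraMap K F a) = 0
  /-- `g = D J` at `V₁` : a unit, and its reduction `D̄₁ j̄` has order `≥ r` at the node -/
  g₁ : ↥O₁
  g₁_eq : (g₁ : F) = D J
  g₁_red : red₁ g₁ ≠ 0
  g₁_ord : s₁.ord (red₁ ⟨J - algebraMap K F j0, J_mem₁⟩) ≤ s₁.ord (red₁ g₁)
  /-- `D Y`, `D Rm` at `V₂`, and CARTIER : `Ȳ^(p-1) D̄₂ Ȳ + D̄₂ R̄ ≠ 0` -/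
  DY : ↥O₂
  DY_eq : (DY : F) = D (Y : F)
  DR : ↥O₂
  DR_eq : (DR : F) = D (Rm : F)
  cartier : red₂ Y ^ (p - 1) * red₂ DY + red₂ DR ≠ 0
  /-- in the annulus : values of `J`, orders of `D J`, ramification -/
  J_val : ∀ R ∈ Ann, ∃ a : K, J - algebraMap K F a ∈ R.toValuationSubring.nonunits
  J_nonconst : ∀ a : K, J ≠ algebraMap K F a
  der_ann : ∀ R ∈ Ann, ∀ a : K, J - algebraMap K F a ∈ R.toValuationSubring.nonunits →
    R.ord (D J) = R.ord (J - algebraMap K F a) - 1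
  ram : ∀ R ∈ Ann, ∀ a : K, J - algebraMap K F a ∈ R.toValuationSubring.nonunits →
    R.ord (J - algebraMap K F a) ≤ 3 ∧ (2 ≤ R.ord (J - algebraMap K F a) → a = j0)
  /-- a finite set of places of the annulus containing the zeros of `f` there -/
  Z : Finset (Place K F)
  Z_sub : ∀ R ∈ Z, R ∈ Ann
  Z_zero : ∀ R ∈ Ann, R.ord (J - algebraMap K F j0) ≠ 0 → R ∈ Z
  /-- the slope formula for `f` (normalised by `1, 1`) and for `g = D J` (by `1, p⁻¹`) -/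
  slope_f : MrtSlopeFor v O₁ O₂ red₁ red₂ s₁ Ann ν E (J - algebraMap K F j0) 1 1
  slope_g : MrtSlopeFor v O₁ O₂ red₁ red₂ s₁ Ann ν E (D J) 1 ((p : K)⁻¹)

/-- **(THICK), abstract form** : `r * e ≤ 3`. -/
def MrtThickSpec : Prop :=
  ∀ (K F k F₁ F₂ Γ : Type) [Field K] [Field F] [Algebra K F] [Field k] [Field F₁] [Algebra k F₁]
    [Field F₂] [Algebra k F₂] [AddCommGroup Γ] [LinearOrder Γ] [IsOrderedAddMonoid Γ]
    (N : MrtThickData K F k F₁ F₂ Γ), N.r * N.e ≤ 3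

/-- the corollary consumed by `mrr` (W1) and `mrm` (Eisenstein vector) : `p ∤ e`. -/
def MrtNotDvdSpec : Prop :=
  ∀ (K F k F₁ F₂ Γ : Type) [Field K] [Field F] [Algebra K F] [Field k] [Field F₁] [Algebra k F₁]
    [Field F₂] [Algebra k F₂] [AddCommGroup Γ] [LinearOrder Γ] [IsOrderedAddMonoid Γ]
    (N : MrtThickData K F k F₁ F₂ Γ), 5 ≤ N.p → 1 ≤ N.r → 1 ≤ N.e → ¬ N.p ∣ N.e

end Fermat.Agent.MR
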