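import Mathlib
import Fermat.Agent.MR.Thick.Spec

/-!
# Program MR, block `mrt` (THICK) : the arithmetic leaf (T-ARITH)  (helper7)
-/

set_option autoImplicit false

namespace Fermat.Agent.MR

/-- (T-ARITH), universe polymorphic -/
theorem mrt_arith' {Γ : Type*} [AddCommGroup Γ] [LinearOrder Γ] [IsOrderedAddMonoid Γ]
    {ι : Type*} (Z : Finset ι) (n : ι → ℤ) (c : ι → Γ) (r r' : ℤ) (E vp : Γ)
    (hn : ∀ R ∈ Z, 0 ≤ n R ∧ n R ≤ 3) (hc : ∀ R ∈ Z, 0 ≤ c R) (hrr' : r ≤ r') (hE : 0 ≤ E)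
    (hF : r • E = ∑ R ∈ Z, n R • c R)
    (hG : vp = r' • E - ∑ R ∈ Z, (if 1 ≤ n R then n R - 1 else 0) • c R) :
    r • E ≤ (3 : ℤ) • vp := by
  -- `d R`
  set d : ι → ℤ := fun R => if 1 ≤ n R then n R - 1 else 0 with hd
  -- `n R ≤ 3 * (n R - d R)`
  have key : ∀ R ∈ Z, n R • c R ≤ (3 * (n R - d R)) • c R := by
    intro R hR
    obtain ⟨h0, h3⟩ := hn R hR
    refine zsmul_le_zsmul_left (hc R hR) ?_
    simp only [hd]
    split_ifs with h1
    · omega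
    · omega
  have hsum : ∑ R ∈ Z, n R • c R ≤ ∑ R ∈ Z, (3 * (n R - d R)) • c R :=
    Finset.sum_le_sum key
  have e1 : ∑ R ∈ Z, (3 * (n R - d R)) • c R =
      (3 : ℤ) • (∑ R ∈ Z, n R • c R - ∑ R ∈ Z, d R • c R) := by
    rw [← Finset.sum_sub_distrib, Finset.smul_sum]
    refine Finset.sum_congr rfl fun R _ => ?_
    rw [mul_smul, sub_smul]
  have e2 : ∑ R ∈ Z, n R • c R - ∑ R ∈ Z, d R • c R = vp - (r' - r) • E := by
    rw [hG, ← hF, sub_smul]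
    abel
  have h3 : (0 : Γ) ≤ (r' - r) • E := zsmul_nonneg hE (by omega)
  calc r • E = ∑ R ∈ Z, n R • c R := hF
    _ ≤ ∑ R ∈ Z, (3 * (n R - d R)) • c R := hsum
    _ = (3 : ℤ) • (vp - (r' - r) • E) := by rw [e1, e2]
    _ ≤ (3 : ℤ) • vp := by
        refine zsmul_le_zsmul_right (by norm_num) ?_
        exact sub_le_self _ h3

/-- (T-ARITH) -/
theorem mrt_arith : MrtArithSpec := by
  intro Γ _ _ _ ι Z n c r r' E vp hn hc hrr' hE hF hG
  exact mrt_arith' Z n c r r' E vp hn hc hrr' hE hF hG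

end Fermat.Agent.MR
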