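import Mathlib
import Fermat.Agent.MR.Thick.Spec
import Fermat.Agent.MR.Thick.Arith
import Fermat.Agent.S24.PlaceOrd

/-!
# Program MR, block `mrt` (THICK) : the assembly `r * e ≤ 3`  (helper7)

`mrt_thick : MrtThickSpec` and `mrt_not_dvd : MrtNotDvdSpec`, from the fields of `MrtThickData`.
-/

set_option autoImplicit false

namespace Fermat.Agent.MR

open AlgebraicCurve Fermat.Agent.S24

section Place

variable {K F : Type*} [Field K] [Field F] [Algebra K F]

/-- a nonzero non-unit of `𝒪_R` has positive order -/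
theorem mrt_one_le_ord (R : Place K F) {x : F} (hx : x ∈ R.toValuationSubring.nonunits)
    (hx0 : x ≠ 0) : 1 ≤ R.ord x := by
  have h1 : 0 < R.ord x := by
    rw [PlaceOrd.ord_pos_iff R hx0]
    intro hinv
    rw [ValuationSubring.mem_nonunits_iff_exists_mem_maximalIdeal] at hx
    obtain ⟨hxm, hxmax⟩ := hx
    rw [IsLocalRing.mem_maximalIdeal, mem_nonunits_iff] at hxmax
    apply hxmax
    refine IsUnit.of_mul_eq_one ⟨x⁻¹, hinv⟩ ?_
    apply Subtype.ext
    simp [hx0]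
  omega

/-- `x ∈ 𝔪_R` plus a nonzero constant is a unit at `R` -/
theorem mrt_ord_add_const (R : Place K F) {x : F} (hx : x ∈ R.toValuationSubring.nonunits)
    {b : K} (hb : b ≠ 0) : R.ord (x + algebraMap K F b) = 0 := by
  have hb0 : algebraMap K F b ≠ 0 := by simpa using hb
  rcases eq_or_ne x 0 with rfl | hx0
  · rw [zero_add]; exact PlaceOrd.ord_algebraMap R b
  have h1 := mrt_one_le_ord R hx hx0
  have hne : x + algebraMap K F b ≠ 0 := by
    intro h0
    have : x = algebraMap K F (-b) := by rw [map_neg]; exact eq_neg_of_add_eq_zero_left h0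
    rw [this, PlaceOrd.ord_algebraMap] at h1
    omega
  -- lower bound
  have hlow : 0 ≤ R.ord (x + algebraMap K F b) := by
    have := PlaceOrd.min_le_ord_add R hne
    rw [PlaceOrd.ord_algebraMap] at this
    have : min (R.ord x) 0 = 0 := by omega
    omega
  -- upper bound : `b = (x + b) - x`
  by_contra hne0
  have hpos : 0 < R.ord (x + algebraMap K F b) := by omega
  have hsub : (x + algebraMap K F b) - x ≠ 0 := by rwa [add_sub_cancel_left]
  have := PlaceOrd.ord_sub_pos_of_pos R hpos (by omega : 0 < R.ord x) hsub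
  rw [add_sub_cancel_left, PlaceOrd.ord_algebraMap] at this
  omega

end Place

section Main

variable {K F k F₁ F₂ Γ : Type*} [Field K] [Field F] [Algebra K F] [Field k] [Field F₁]
  [Algebra k F₁] [Field F₂] [Algebra k F₂] [AddCommGroup Γ] [LinearOrder Γ] [IsOrderedAddMonoid Γ]

/-- `v 1 = 0` -/
theorem mrt_v_one (N : MrtThickData K F k F₁ F₂ Γ) : N.v 1 = 0 := by
  have h := N.v_mul 1 1 one_ne_zero one_ne_zero
  rw [mul_one] at h
  have : N.v 1 + 0 = N.v 1 + N.v 1 := by rw [add_zero]; exact h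
  exact (add_left_cancel this).symm

/-- `v p⁻¹ = - v p` -/
theorem mrt_v_pinv (N : MrtThickData K F k F₁ F₂ Γ) :
    N.v ((N.p : K)⁻¹) = - N.v (N.p : K) := by
  have h := N.v_mul (N.p : K) ((N.p : K)⁻¹) N.p_ne (inv_ne_zero N.p_ne)
  rw [mul_inv_cancel₀ N.p_ne, mrt_v_one] at h
  exact eq_neg_of_add_eq_zero_right h.symm

/-- `(p : F) ≠ 0` -/
theorem mrt_pF_ne (N : MrtThickData K F k F₁ F₂ Γ) : (N.p : F) ≠ 0 := by
  have h := (map_ne_zero (algebraMap K F)).mpr N.p_ne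
  rwa [map_natCast] at h

/-- `D` kills `(p : F)` -/
theorem mrt_D_p (N : MrtThickData K F k F₁ F₂ Γ) : N.D (N.p : F) = 0 := by
  have : (N.p : F) = algebraMap K F (N.p : K) := by rw [map_natCast]
  rw [this, N.D_const]

/-- `D (-x) = - D x` -/
theorem mrt_D_neg (N : MrtThickData K F k F₁ F₂ Γ) (x : F) : N.D (-x) = - N.D x := by
  have h0 : N.D 0 = 0 := by
    have := N.D_const 0
    rwa [map_zero] at this
  have h := N.D_add x (-x)
  rw [add_neg_cancel, h0] at h
  exact (neg_eq_of_add_eq_zero_right h.symm).symm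

/-- `D f = D J` -/
theorem mrt_D_f (N : MrtThickData K F k F₁ F₂ Γ) :
    N.D (N.J - algebraMap K F N.j0) = N.D N.J := by
  rw [sub_eq_add_neg, N.D_add, mrt_D_neg, N.D_const, neg_zero, add_zero]

/-- `D (x ^ (n+1)) = (n+1) x^n D x` -/
theorem mrt_D_pow (N : MrtThickData K F k F₁ F₂ Γ) (x : F) (n : ℕ) :
    N.D (x ^ (n + 1)) = ((n + 1 : ℕ) : F) * x ^ n * N.D x := by
  induction n with
  | zero => simp
  | succ n ih =>
    rw [pow_succ, N.D_mul, ih]
    push_cast
    ring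

/-- `D J = p (Y^(p-1) D Y + D Rm)` -/
theorem mrt_D_J (N : MrtThickData K F k F₁ F₂ Γ) (hp : N.p ≠ 0) :
    N.D N.J = (N.p : F) * ((N.Y : F) ^ (N.p - 1) * N.D (N.Y : F) + N.D (N.Rm : F)) := by
  obtain ⟨n, hn⟩ : ∃ n, N.p = n + 1 := ⟨N.p - 1, by omega⟩
  conv_lhs => rw [N.kron]
  rw [N.D_add, N.D_mul, mrt_D_p, mul_zero, add_zero]
  have : N.D ((N.Y : F) ^ N.p) = (N.p : F) * (N.Y : F) ^ (N.p - 1) * N.D (N.Y : F) := by
    have h := mrt_D_pow N (N.Y : F) n
    rw [← hn] at h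
    rw [h]
    congr 2
    rw [hn, Nat.add_sub_cancel]
  rw [this]
  ring

/-- **(THICK)** : `r * e ≤ 3` (universe polymorphic). -/
theorem mrt_thick' (N : MrtThickData K F k F₁ F₂ Γ) : N.r * N.e ≤ 3 := by
  -- notation
  set f : F := N.J - algebraMap K F N.j0 with hf
  set g : F := N.D N.J with hg
  set vp : Γ := N.v (N.p : K) with hvp
  have hpF := mrt_pF_ne N
  have hp0 : N.p ≠ 0 := by
    intro h0
    apply N.p_ne
    rw [h0, Nat.cast_zero]
  have hE0 : 0 ≤ N.E := by rw [N.hE]; exact nsmul_nonneg N.vp_pos.le _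
  have hf0 : f ≠ 0 := by
    intro h0
    exact N.J_nonconst N.j0 (sub_eq_zero.mp h0)
  -- facts in the annulus
  have hann : ∀ R ∈ N.Ann, 0 ≤ R.ord f ∧ R.ord f ≤ 3 ∧
      R.ord g = if 1 ≤ R.ord f then R.ord f - 1 else 0 := by
    intro R hR
    obtain ⟨a, ha⟩ := N.J_val R hR
    have hJa0 : N.J - algebraMap K F a ≠ 0 := fun h0 => N.J_nonconst a (sub_eq_zero.mp h0)
    have h1 := mrt_one_le_ord R ha hJa0
    obtain ⟨h3, h2⟩ := N.ram R hR a ha
    have hgR := N.der_ann R hR a ha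
    by_cases haj : a = N.j0
    · have hfa : N.J - algebraMap K F a = f := by rw [hf, haj]
      rw [hfa] at h1 h3 hgR
      refine ⟨by omega, h3, ?_⟩
      rw [hg, hgR, if_pos h1]
    · have hfR : R.ord f = 0 := by
        have e : f = (N.J - algebraMap K F a) + algebraMap K F (a - N.j0) := by
          rw [hf, map_sub]; ring
        rw [e]
        exact mrt_ord_add_const R ha (sub_ne_zero.mpr haj)
      have hm : R.ord (N.J - algebraMap K F a) = 1 := by
        by_contra hne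
        exact haj (h2 (by omega))
      refine ⟨by omega, by omega, ?_⟩
      rw [hg, hgR, hm, hfR]
      simp
  -- slope formula for `f`
  have hF : (N.r : ℤ) • N.E = ∑ R ∈ N.Z, R.ord f • (N.E - N.ν R) := by
    have h := N.slope_f ⟨f, N.J_mem₁⟩ ⟨f, N.J_mem₂⟩ N.Z (by rw [map_one, one_mul])
      N.f_red₁ (by rw [map_one, one_mul]) N.f_red₂ N.Z_sub N.Z_zero
    rw [sub_self, N.hr] at h
    exact (sub_eq_zero.mp h.symm)
  -- the normalisations of `g`
  have hy₁g : (N.g₁ : F) = algebraMap K F 1 * g := by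
    rw [N.g₁_eq, map_one, one_mul]
  set y₂ : ↥N.O₂ := N.Y ^ (N.p - 1) * N.DY + N.DR with hy₂
  have hy₂g : (y₂ : F) = algebraMap K F ((N.p : K)⁻¹) * g := by
    rw [hg, mrt_D_J N hp0, map_inv₀, map_natCast, ← mul_assoc, inv_mul_cancel₀ hpF, one_mul, hy₂]
    push_cast
    rw [N.DY_eq, N.DR_eq]
  have hy₂0 : N.red₂ y₂ ≠ 0 := by
    rw [hy₂, map_add, map_mul, map_pow]
    exact N.cartier
  -- zeros of `g` in the annulus lie in `Z`
  have hZg : ∀ R ∈ N.Ann, R.ord g ≠ 0 → R ∈ N.Z := by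
    intro R hR hne
    apply N.Z_zero R hR
    obtain ⟨h0, h3, hgR⟩ := hann R hR
    intro hfR
    apply hne
    rw [hgR, show (R.ord f) = 0 from hfR]
    simp
  -- slope formula for `g`
  have hG : vp = N.s₁.ord (N.red₁ N.g₁) • N.E - ∑ R ∈ N.Z, R.ord g • (N.E - N.ν R) := by
    have h := N.slope_g N.g₁ y₂ N.Z hy₁g N.g₁_red hy₂g hy₂0 N.Z_sub hZg
    rw [mrt_v_one, mrt_v_pinv, zero_sub, neg_neg] at h
    exact h
  have hr' : (N.r : ℤ) ≤ N.s₁.ord (N.red₁ N.g₁) := by
    rw [← N.hr]; exact N.g₁_ord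
  -- arithmetic
  have hG' : vp = N.s₁.ord (N.red₁ N.g₁) • N.E -
      ∑ R ∈ N.Z, (if 1 ≤ R.ord f then R.ord f - 1 else 0) • (N.E - N.ν R) := by
    rw [hG]
    congr 1
    refine Finset.sum_congr rfl fun R hR => ?_
    rw [(hann R (N.Z_sub R hR)).2.2]
  have hA := mrt_arith' N.Z (fun R => R.ord f) (fun R => N.E - N.ν R) (N.r : ℤ)
    (N.s₁.ord (N.red₁ N.g₁)) N.E vp
    (fun R hR => ⟨(hann R (N.Z_sub R hR)).1, (hann R (N.Z_sub R hR)).2.1⟩)
    (fun R hR => sub_nonneg.mpr (N.depth R (N.Z_sub R hR))) hr' hE0 hF hG'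
  -- `r • (e • vp) ≤ 3 • vp`
  rw [N.hE, natCast_zsmul, ← mul_nsmul'] at hA
  have hA' : (N.r * N.e) • vp ≤ 3 • vp := by
    have : (3 : ℤ) • vp = (3 : ℕ) • vp := by
      rw [← natCast_zsmul]; rfl
    rw [this, ← hvp] at hA
    exact hA
  by_contra hlt
  push Not at hlt
  have := nsmul_lt_nsmul_left N.vp_pos hlt
  exact absurd hA' (not_le.mpr this)

/-- `p ∤ e` (universe polymorphic) -/
theorem mrt_not_dvd' (N : MrtThickData K F k F₁ F₂ Γ) (hp : 5 ≤ N.p) (hr : 1 ≤ N.r)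
    (he : 1 ≤ N.e) : ¬ N.p ∣ N.e := by
  intro hdvd
  have h := mrt_thick' N
  have he3 : N.e ≤ 3 := by
    calc N.e = 1 * N.e := (one_mul _).symm
      _ ≤ N.r * N.e := Nat.mul_le_mul_right _ hr
      _ ≤ 3 := h
  have := Nat.le_of_dvd (by omega) hdvd
  omega

end Main

/-- **(THICK)** -/
theorem mrt_thick : MrtThickSpec := by
  intro K F k F₁ F₂ Γ _ _ _ _ _ _ _ _ _ _ _ N
  exact mrt_thick' N

/-- `p ∤ e` -/
theorem mrt_not_dvd : MrtNotDvdSpec := by
  intro K F k F₁ F₂ Γ _ _ _ _ _ _ _ _ _ _ _ N hp hr he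
  exact mrt_not_dvd' N hp hr he

end Fermat.Agent.MR
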