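import Mathlib
import Fermat.Agent.MR.Thick.Main
import Fermat.Agent.MR.Slope.Spec

/-!
# Program MR, block `mrt` (THICK) : the adapter  `mrs` (helper29's `MrsSlopeSpec`) ⟹ `MrtThickData`

`A : ValuationSubring K`; `Γ := Additive (A.ValueGroup)ˣ`, `mrtV A a = - ofMul |a|` (positive on
`𝔪_A`).  `mrt_slopeFor_of_mrs` turns the multiplicative slope formula of `MR/Slope/Spec.lean` into
the additive `MrtSlopeFor`; `mrt_thick_of_mrs` is (THICK) at a node of an `MrsModel`/`MrsNode`: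
`|κ| = |p| ^ e ⟹ r * e ≤ 3`.
-/

set_option autoImplicit false
set_option linter.unusedSectionVars false
set_option linter.unusedVariables false

noncomputable section

namespace Fermat.Agent.MR

open AlgebraicCurve IsLocalRing Fermat.Agent.G Fermat.Agent.TT

section Val

variable {K : Type*} [Field K] (A : ValuationSubring K)

/-- the unit of the value group attached to `a ≠ 0` -/
def mrtU (a : K) (h : a ≠ 0) : (A.ValueGroup)ˣ :=
  Units.mk0 (A.valuation a) ((Valuation.ne_zero_iff _).mpr h)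

open Classical in
/-- the additive valuation of `A`, positive on `𝔪_A` (value `0` at `0`) -/
def mrtV (a : K) : Additive (A.ValueGroup)ˣ :=
  if h : a = 0 then 0 else - Additive.ofMul (mrtU A a h)

theorem mrtV_of_ne {a : K} (h : a ≠ 0) : mrtV A a = - Additive.ofMul (mrtU A a h) := by
  unfold mrtV
  rw [dif_neg h]

theorem mrtU_mul {a b : K} (ha : a ≠ 0) (hb : b ≠ 0) :
    mrtU A (a * b) (mul_ne_zero ha hb) = mrtU A a ha * mrtU A b hb := by
  apply Units.ext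
  simp [mrtU]

theorem mrtV_mul (a b : K) (ha : a ≠ 0) (hb : b ≠ 0) :
    mrtV A (a * b) = mrtV A a + mrtV A b := by
  rw [mrtV_of_ne A (mul_ne_zero ha hb), mrtV_of_ne A ha, mrtV_of_ne A hb, mrtU_mul A ha hb,
    ofMul_mul, neg_add]

theorem mrtV_pos {a : K} (h : a ≠ 0) (ha : a ∈ A.nonunits) : 0 < mrtV A a := by
  rw [mrtV_of_ne A h, neg_pos]
  have h1 : A.valuation a < 1 := ha
  have : mrtU A a h < 1 := by
    rw [← Units.val_lt_val]
    exact h1
  exact this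

/-- multiplicative ⟹ additive -/
theorem mrtV_of_mul_identity {ι : Type*} (T : Finset ι) (a : ι → K) (n : ι → ℤ) (m : ℤ)
    (c₁ c₂ κ : K) (hc₁ : c₁ ≠ 0) (hc₂ : c₂ ≠ 0) (hκ : κ ≠ 0) (ha : ∀ i, a i ≠ 0)
    (h : A.valuation c₁ / A.valuation c₂ =
      A.valuation κ ^ m * ∏ i ∈ T, A.valuation (a i) ^ n i) :
    mrtV A c₁ - mrtV A c₂ = m • mrtV A κ + ∑ i ∈ T, n i • mrtV A (a i) := by
  have hU : mrtU A c₁ hc₁ / mrtU A c₂ hc₂ =
      mrtU A κ hκ ^ m * ∏ i ∈ T, mrtU A (a i) (ha i) ^ n i := by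
    apply Units.ext
    rw [Units.val_div_eq_div_val, Units.val_mul, Units.val_zpow_eq_zpow_val, Units.coe_prod]
    simp only [Units.val_zpow_eq_zpow_val]
    exact h
  have hadd := congrArg Additive.ofMul hU
  rw [ofMul_div, ofMul_mul, ofMul_zpow, ofMul_prod] at hadd
  simp only [ofMul_zpow] at hadd
  rw [mrtV_of_ne A hc₁, mrtV_of_ne A hc₂, mrtV_of_ne A hκ]
  have e : ∑ i ∈ T, n i • mrtV A (a i) = - ∑ i ∈ T, n i • Additive.ofMul (mrtU A (a i) (ha i)) := by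
    rw [← Finset.sum_neg_distrib]
    refine Finset.sum_congr rfl fun i _ => ?_
    rw [mrtV_of_ne A (ha i), smul_neg]
  rw [e, smul_neg, ← neg_add, ← hadd]
  abel

end Val

section Adapter

variable {K F F₁ F₂ : Type*} [Field K] [Field F] [Algebra K F]
variable (A : ValuationSubring K)
variable [Field F₁] [Algebra (ResidueField A) F₁] [Field F₂] [Algebra (ResidueField A) F₂]
variable (V₁ V₂ : ValuationSubring F) (red₁ : V₁ →+* F₁) (red₂ : V₂ →+* F₂)
variable (Q₁ : Place (ResidueField A) F₁) (Q₂ : Place (ResidueField A) F₂)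
variable (cen : Place K F → Prop) (u w : F) (κ : K)

open Classical in
/-- a value of `u` at every place (the chosen one in the annulus, `1` elsewhere) -/
def mrtA (hN : MrsNode A V₁ V₂ red₁ red₂ Q₁ Q₂ cen u w κ) (R : Place K F) : K :=
  if h : cen R then Classical.choose (hN.cen_val R h) else 1

theorem mrtA_spec (hN : MrsNode A V₁ V₂ red₁ red₂ Q₁ Q₂ cen u w κ) (R : Place K F) (h : cen R) :
    GrdVal R u (mrtA A V₁ V₂ red₁ red₂ Q₁ Q₂ cen u w κ hN R) ∧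
      mrtA A V₁ V₂ red₁ red₂ Q₁ Q₂ cen u w κ hN R ≠ 0 ∧
      mrtA A V₁ V₂ red₁ red₂ Q₁ Q₂ cen u w κ hN R ∈ A.nonunits ∧
      κ / mrtA A V₁ V₂ red₁ red₂ Q₁ Q₂ cen u w κ hN R ∈ A.nonunits := by
  unfold mrtA
  rw [dif_pos h]
  exact Classical.choose_spec (hN.cen_val R h)

theorem mrtA_ne (hN : MrsNode A V₁ V₂ red₁ red₂ Q₁ Q₂ cen u w κ) (R : Place K F) :
    mrtA A V₁ V₂ red₁ red₂ Q₁ Q₂ cen u w κ hN R ≠ 0 := by
  by_cases h : cen R
  · exact (mrtA_spec A V₁ V₂ red₁ red₂ Q₁ Q₂ cen u w κ hN R h).2.1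
  · unfold mrtA
    rw [dif_neg h]
    exact one_ne_zero

/-- a `V`-element with nonzero reduction is a `V`-unit -/
theorem mrt_isU_of_red {V : ValuationSubring F} {Fi : Type*} [Field Fi] (red : V →+* Fi)
    (hker : ∀ x : V, red x = 0 ↔ (x : F) ∈ V.nonunits) (x : V) (hx : red x ≠ 0) :
    TtalIsU V (x : F) := by
  refine ⟨x.2, ?_⟩
  have h1 : (x : F) ∉ V.nonunits := fun h => hx ((hker x).mpr h)
  rw [ValuationSubring.mem_nonunits_iff_exists_mem_maximalIdeal] at h1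
  push Not at h1
  have h2 := h1 x.2
  rw [mem_maximalIdeal, mem_nonunits_iff, not_not] at h2
  obtain ⟨y, hy⟩ := h2.exists_right_inv
  have hy' : (x : F) * (y : F) = 1 := by
    have := congrArg Subtype.val hy
    simpa using this
  rw [inv_eq_of_mul_eq_one_right hy']
  exact y.2

/-- **the additive slope formula `MrtSlopeFor` from `MrsSlopeSpec`** -/
theorem mrt_slopeFor_of_mrs (hM : MrsModel A V₁ V₂ red₁ red₂)
    (hN : MrsNode A V₁ V₂ red₁ red₂ Q₁ Q₂ cen u w κ)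
    (hS : MrsSlopeSpec A V₁ V₂ red₁ red₂ Q₁ Q₂ cen u w κ)
    (h : F) (hh : h ≠ 0) (c₁ c₂ : K) (hc₁ : c₁ ≠ 0) (hc₂ : c₂ ≠ 0) :
    MrtSlopeFor (k := ResidueField A) (mrtV A) V₁ V₂ red₁ red₂ Q₁ {R | cen R}
      (fun R => mrtV A (mrtA A V₁ V₂ red₁ red₂ Q₁ Q₂ cen u w κ hN R)) (mrtV A κ) h c₁ c₂ := by
  intro x₁ x₂ T hx₁ hx₁0 hx₂ hx₂0 hT hsupp
  have hU₁ : TtalIsU V₁ (algebraMap K F c₁ * h) := by
    rw [← hx₁]; exact mrt_isU_of_red red₁ hM.ker₁ x₁ hx₁0
  have hU₂ : TtalIsU V₂ (algebraMap K F c₂ * h) := by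
    rw [← hx₂]; exact mrt_isU_of_red red₂ hM.ker₂ x₂ hx₂0
  obtain ⟨-, hval⟩ := hS hM hN h hh c₁ c₂ hc₁ hc₂ hU₁ hU₂ T hT
    (fun v hv hne => hsupp v hv hne) (mrtA A V₁ V₂ red₁ red₂ Q₁ Q₂ cen u w κ hN)
    (fun v hv => (mrtA_spec A V₁ V₂ red₁ red₂ Q₁ Q₂ cen u w κ hN v (hT v hv)).1)
  have hx₁' : x₁ = ⟨algebraMap K F c₁ * h, hU₁.1⟩ := Subtype.ext hx₁
  rw [← hx₁'] at hval
  have hadd := mrtV_of_mul_identity A T (mrtA A V₁ V₂ red₁ red₂ Q₁ Q₂ cen u w κ hN)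
    (fun R => R.ord h) (Q₁.ord (red₁ x₁) - ∑ v ∈ T, v.ord h) c₁ c₂ κ hc₁ hc₂ hN.kap_ne
    (mrtA_ne A V₁ V₂ red₁ red₂ Q₁ Q₂ cen u w κ hN) hval
  rw [hadd, sub_smul, Finset.sum_smul]
  simp only [smul_sub]
  rw [Finset.sum_sub_distrib]
  abel

/-- **(THICK) at a node of an `MrsModel` / `MrsNode`** : `|κ| = |p| ^ e ⟹ r * e ≤ 3`.
Hypotheses = the (THICK)-specific inputs (suppliers as in `MrtThickData`). -/
theorem mrt_thick_of_mrs (hM : MrsModel A V₁ V₂ red₁ red₂)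
    (hN : MrsNode A V₁ V₂ red₁ red₂ Q₁ Q₂ cen u w κ)
    (hS : MrsSlopeSpec A V₁ V₂ red₁ red₂ Q₁ Q₂ cen u w κ)
    (p : ℕ) (hp0 : (p : K) ≠ 0) (hpA : (p : K) ∈ A.nonunits)
    (e : ℕ) (hκ : A.valuation κ = A.valuation (p : K) ^ e)
    (J : F) (j0 : K) (J_mem₁ : J - algebraMap K F j0 ∈ V₁) (J_mem₂ : J - algebraMap K F j0 ∈ V₂)
    (Y Rm : ↥V₂) (kron : J = (Y : F) ^ p + (p : F) * (Rm : F))
    (f_red₁ : red₁ ⟨J - algebraMap K F j0, J_mem₁⟩ ≠ 0)
    (f_red₂ : red₂ ⟨J - algebraMap K F j0, J_mem₂⟩ ≠ 0)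
    (r : ℕ) (hr : Q₁.ord (red₁ ⟨J - algebraMap K F j0, J_mem₁⟩) = r)
    (D : F → F) (D_add : ∀ x y : F, D (x + y) = D x + D y)
    (D_mul : ∀ x y : F, D (x * y) = x * D y + y * D x)
    (D_const : ∀ a : K, D (algebraMap K F a) = 0)
    (g₁ : ↥V₁) (g₁_eq : (g₁ : F) = D J) (g₁_red : red₁ g₁ ≠ 0)
    (g₁_ord : Q₁.ord (red₁ ⟨J - algebraMap K F j0, J_mem₁⟩) ≤ Q₁.ord (red₁ g₁))
    (DY : ↥V₂) (DY_eq : (DY : F) = D (Y : F)) (DR : ↥V₂) (DR_eq : (DR : F) = D (Rm : F))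
    (cartier : red₂ Y ^ (p - 1) * red₂ DY + red₂ DR ≠ 0)
    (J_val : ∀ R, cen R → ∃ a : K, J - algebraMap K F a ∈ R.toValuationSubring.nonunits)
    (J_nonconst : ∀ a : K, J ≠ algebraMap K F a)
    (der_ann : ∀ R, cen R → ∀ a : K, J - algebraMap K F a ∈ R.toValuationSubring.nonunits →
      R.ord (D J) = R.ord (J - algebraMap K F a) - 1)
    (ram : ∀ R, cen R → ∀ a : K, J - algebraMap K F a ∈ R.toValuationSubring.nonunits →
      R.ord (J - algebraMap K F a) ≤ 3 ∧ (2 ≤ R.ord (J - algebraMap K F a) → a = j0))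
    (Z : Finset (Place K F)) (Z_sub : ∀ R ∈ Z, cen R)
    (Z_zero : ∀ R, cen R → R.ord (J - algebraMap K F j0) ≠ 0 → R ∈ Z) :
    r * e ≤ 3 := by
  have hf0 : J - algebraMap K F j0 ≠ 0 := fun h0 => J_nonconst j0 (sub_eq_zero.mp h0)
  have hg0 : D J ≠ 0 := by
    intro h0
    apply g₁_red
    have : g₁ = 0 := Subtype.ext (by rw [g₁_eq, h0]; rfl)
    rw [this, map_zero]
  let N : MrtThickData K F (ResidueField A) F₁ F₂ (Additive (A.ValueGroup)ˣ) :=
    { p := p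
      p_ne := hp0
      v := mrtV A
      v_mul := mrtV_mul A
      vp_pos := mrtV_pos A hp0 hpA
      O₁ := V₁
      O₂ := V₂
      red₁ := red₁
      red₂ := red₂
      s₁ := Q₁
      Ann := {R | cen R}
      ν := fun R => mrtV A (mrtA A V₁ V₂ red₁ red₂ Q₁ Q₂ cen u w κ hN R)
      E := mrtV A κ
      e := e
      hE := by
        rw [mrtV_of_ne A hN.kap_ne, mrtV_of_ne A hp0, smul_neg, ← ofMul_pow]
        congr 2
        apply Units.ext
        rw [Units.val_pow_eq_pow_val]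
        exact hκ
      depth := by
        intro R hR
        obtain ⟨-, ha0, -, hκa⟩ := mrtA_spec A V₁ V₂ red₁ red₂ Q₁ Q₂ cen u w κ hN R hR
        have hne : κ / mrtA A V₁ V₂ red₁ red₂ Q₁ Q₂ cen u w κ hN R ≠ 0 :=
          div_ne_zero hN.kap_ne ha0
        have hpos := mrtV_pos A hne hκa
        have hmul := mrtV_mul A _ _ hne ha0
        rw [div_mul_cancel₀ _ ha0] at hmul
        rw [hmul]
        exact le_add_of_nonneg_left hpos.le
      J := J
      j0 := j0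
      J_mem₁ := J_mem₁
      J_mem₂ := J_mem₂
      Y := Y
      Rm := Rm
      kron := kron
      f_red₁ := f_red₁
      f_red₂ := f_red₂
      r := r
      hr := hr
      D := D
      D_add := D_add
      D_mul := D_mul
      D_const := D_const
      g₁ := g₁
      g₁_eq := g₁_eq
      g₁_red := g₁_red
      g₁_ord := g₁_ord
      DY := DY
      DY_eq := DY_eq
      DR := DR
      DR_eq := DR_eq
      cartier := cartier
      J_val := fun R hR => J_val R hR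
      J_nonconst := J_nonconst
      der_ann := fun R hR => der_ann R hR
      ram := fun R hR => ram R hR
      Z := Z
      Z_sub := fun R hR => Z_sub R hR
      Z_zero := fun R hR => Z_zero R hR
      slope_f := mrt_slopeFor_of_mrs A V₁ V₂ red₁ red₂ Q₁ Q₂ cen u w κ hM hN hS _ hf0 1 1
        one_ne_zero one_ne_zero
      slope_g := mrt_slopeFor_of_mrs A V₁ V₂ red₁ red₂ Q₁ Q₂ cen u w κ hM hN hS _ hg0 1 _
        one_ne_zero (inv_ne_zero hp0) }
  exact mrt_thick' N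

end Adapter

end Fermat.Agent.MR
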