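import Mathlib
import Fermat.Agent.S24.X0Places
import Fermat.Agent.G.Red.Inst
import Fermat.Agent.TT.Red2.ChartRed
import Fermat.Agent.TT.Red2.Inst

/-!
# Program MR (S44), block `mrt` (THICK), leaf (T-RAM) : RAMIFICATION OF `j` IS `≤ 3` (prefix `mrtr`)

Owner: helper8.  Namespace `Fermat.Agent.MR`.  PM ruling R61.

For the function field `F_ℚ̄(N)` of `X₀(N)` and EVERY place `v` and EVERY `a ∈ ℚ̄` :

* `mrtr_ord_dvd` : `0 < ord_v (j - a) → ord_v (j - a) ∣ e`, `e` the analytic order of `j - a` at a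
  point `τ₀` of the upper half plane over `a` (S24's embeddings `pointEmb`, `exists_places_of_embeddings`);
* `mrtr_ord_dvd_three` (`a = 0`), `mrtr_ord_dvd_two` (`a = 1728`), `mrtr_ord_eq_one` (other `a`);
* **`mrtr_ord_le_three` : `ord_v (j - a) ≤ 3`** (no hypothesis : cusps have `ord < 0`);
* `mrtr_ord_two_le` : `2 ≤ ord_v (j - a) → a = 0 ∨ a = 1728` (elliptic points only);
* the same for `J = α j ∈ F_ℚ̄(M p)` in the spelling of Program TT : `mrtr_J_eq` (`ttrJ M 𝔸 = jBar (M p)`),
  **`mrtr_ord_J_le_three`**, `mrtr_ord_J_two_le`, `mrtr_ord_J_dvd_three/two`.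
-/

set_option autoImplicit false
set_option linter.unusedSectionVars false
set_option linter.unusedVariables false

noncomputable section

namespace Fermat.Agent.MR

open UpperHalfPlane ModularCurve IntermediateField AlgebraicCurve Fermat.Agent.S24
open scoped MatrixGroups Manifold ModularForm Real

section Level

variable (N : ℕ) [NeZero N]

/-- **the ramification index of `j` at a place over `a` divides the analytic order of `j - a` at a
point of the upper half plane over `a`** (S24's local embeddings at `τ₀`). -/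
theorem mrtr_ord_dvd (a : QBar) (τ₀ : ℍ) (hτ₀ : jFun τ₀ = iotaBar a)
    (γ₀ : SL(2, ℤ)) (hγ₀ : γ₀ • τ₀ = τ₀) (e : ℕ)
    (he : analyticOrderAt (fun z : ℂ => jFun (ofComplex z) - jFun τ₀) (τ₀ : ℂ) = e)
    (hζ : IsPrimitiveRoot (rotFactor γ₀ τ₀) e)
    (v : Place QBar (modularFunctionFieldBar N))
    (hv : 0 < v.ord (jBar N - algebraMap QBar (modularFunctionFieldBar N) a)) :
    v.ord (jBar N - algebraMap QBar (modularFunctionFieldBar N) a) ∣ (e : ℤ) := by
  have hfin : Finite (SL(2, ℤ) ⧸ CongruenceSubgroup.Gamma0 N) := finite_quotient_Gamma0 N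
  let _inst : Fintype (SL(2, ℤ) ⧸ CongruenceSubgroup.Gamma0 N) := Fintype.ofFinite _
  have hepos : 0 < e := pos_of_analyticOrderAt_jFun_sub τ₀ e he
  have hζ0 : rotFactor γ₀ τ₀ ≠ 0 := hζ.ne_zero hepos.ne'
  set ζ : ℂˣ := Units.mk0 (rotFactor γ₀ τ₀) hζ0 with hζdef
  have hζval : (ζ : ℂ) = rotFactor γ₀ τ₀ := rfl
  have ht : IsSepGen QBar (jBar N - algebraMap QBar (modularFunctionFieldBar N) a) :=
    (isSepGen_jBar N).sub_algebraMap a
  obtain ⟨κ, hκ, -, hsurj, -⟩ := exists_places_of_embeddings ht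
    (fun q : SL(2, ℤ) ⧸ CongruenceSubgroup.Gamma0 N => pointEmb N τ₀ q.out)
    (pointEmb_out_injective N τ₀)
    (by rw [(isSepGen_jBar N).finrank_sub_algebraMap a, finrank_jBar, Fintype.card_eq_nat_card])
    (fun i j c => by rw [pointEmb_algebraMap, pointEmb_algebraMap])
    (fun i c hc => by
      rw [pointEmb_algebraMap, HahnSeries.C_apply]
      apply HahnSeries.order_single
      intro h0
      exact hc (iotaBar_injective (by rw [h0, map_zero])))
    (fun i j => by rw [pointEmb_jBar_sub, pointEmb_jBar_sub])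
    e hepos (fun i => order_pointEmb_jBar_sub N τ₀ _ a hτ₀ e he)
    (rotFactor γ₀ τ₀) hζ (rotLaurent ζ)
    (fun f m => by rw [rotLaurent_coeff, hζval])
    (MulAction.toPerm γ₀⁻¹)
    (fun q f => by
      rw [rotLaurent_pointEmb N τ₀ γ₀ hγ₀ ζ hζval]
      obtain ⟨h, hh, hout⟩ := exists_out_smul_eq N γ₀⁻¹ q
      show _ = pointEmb N τ₀ (γ₀⁻¹ • q).out f
      rw [hout, pointEmb_mul_of_mem_Gamma0 N τ₀ _ h hh])
  obtain ⟨i, rfl⟩ := hsurj v hv
  obtain ⟨ϖ, hϖ⟩ := IsDiscreteValuationRing.exists_irreducible (κ i).toValuationSubring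
  have hϖ0 : ((ϖ : (κ i).toValuationSubring) : modularFunctionFieldBar N) ≠ 0 := by
    intro h0
    exact hϖ.ne_zero (Subtype.ext h0)
  have h1 := hκ i (ϖ : modularFunctionFieldBar N) hϖ0
  rw [(κ i).ord_coe_irreducible hϖ, mul_one] at h1
  exact ⟨_, by rw [← h1, mul_comm]⟩

/-- over `j = 0` the ramification index divides `3`. -/
theorem mrtr_ord_dvd_three (v : Place QBar (modularFunctionFieldBar N))
    (hv : 0 < v.ord (jBar N - algebraMap QBar (modularFunctionFieldBar N) 0)) :
    v.ord (jBar N - algebraMap QBar (modularFunctionFieldBar N) 0) ∣ (3 : ℤ) := by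
  have hτ : jFun ρ = iotaBar 0 := by rw [jFun_ρ, map_zero]
  have h := mrtr_ord_dvd N 0 ρ hτ (ModularGroup.S * ModularGroup.T) ST_smul_ρ 3 (by
    rw [analyticOrderAt_jFun_sub, if_pos jFun_ρ]
    rfl) (isPrimitiveRoot_rotFactor_ST ρ ST_smul_ρ) v hv
  exact_mod_cast h

/-- over `j = 1728` the ramification index divides `2`. -/
theorem mrtr_ord_dvd_two (v : Place QBar (modularFunctionFieldBar N))
    (hv : 0 < v.ord (jBar N - algebraMap QBar (modularFunctionFieldBar N) 1728)) :
    v.ord (jBar N - algebraMap QBar (modularFunctionFieldBar N) 1728) ∣ (2 : ℤ) := by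
  have hτ : jFun UpperHalfPlane.I = iotaBar 1728 := by rw [jFun_I, map_ofNat]
  have hζ : IsPrimitiveRoot (rotFactor ModularGroup.S UpperHalfPlane.I) 2 := by
    rw [rotFactor_S _ S_smul_I]
    exact IsPrimitiveRoot.neg_one 0 (by norm_num)
  have h0 : jFun UpperHalfPlane.I ≠ 0 := by rw [jFun_I]; norm_num
  have h := mrtr_ord_dvd N 1728 UpperHalfPlane.I hτ ModularGroup.S S_smul_I 2 (by
    rw [analyticOrderAt_jFun_sub, if_neg h0, if_pos jFun_I]
    rfl) hζ v hv
  exact_mod_cast h

/-- over `j = a`, `a ≠ 0, 1728`, the function `j` is unramified. -/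
theorem mrtr_ord_eq_one (a : QBar) (ha0 : a ≠ 0) (ha : a ≠ 1728)
    (v : Place QBar (modularFunctionFieldBar N))
    (hv : 0 < v.ord (jBar N - algebraMap QBar (modularFunctionFieldBar N) a)) :
    v.ord (jBar N - algebraMap QBar (modularFunctionFieldBar N) a) = 1 := by
  obtain ⟨τ₀, hτ⟩ := jFun_surjective (iotaBar a)
  have h0 : jFun τ₀ ≠ 0 := by
    rw [hτ]
    exact fun h => ha0 (iotaBar.injective (by rw [h, map_zero]))
  have h1 : jFun τ₀ ≠ 1728 := by
    rw [hτ]
    exact fun h => ha (iotaBar.injective (by rw [h, map_ofNat]))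
  have hζ : IsPrimitiveRoot (rotFactor 1 τ₀) 1 := by
    rw [rotFactor_one]
    exact IsPrimitiveRoot.one
  have h := mrtr_ord_dvd N a τ₀ hτ 1 (one_smul _ _) 1 (by
    rw [analyticOrderAt_jFun_sub, if_neg h0, if_neg h1]
    rfl) hζ v hv
  have h2 : v.ord (jBar N - algebraMap QBar (modularFunctionFieldBar N) a) ∣ (1 : ℤ) := by
    exact_mod_cast h
  exact Int.eq_one_of_dvd_one hv.le h2

/-- **(T-RAM)** : the ramification indices of `j : X₀(N) → ℙ¹` are `≤ 3` (at every place, for every
value `a`; at a cusp the order is negative). -/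
theorem mrtr_ord_le_three (v : Place QBar (modularFunctionFieldBar N)) (a : QBar) :
    v.ord (jBar N - algebraMap QBar (modularFunctionFieldBar N) a) ≤ 3 := by
  by_cases hv : 0 < v.ord (jBar N - algebraMap QBar (modularFunctionFieldBar N) a)
  · by_cases ha0 : a = 0
    · subst ha0
      exact Int.le_of_dvd (by norm_num) (mrtr_ord_dvd_three N v hv)
    · by_cases ha : a = 1728
      · subst ha
        have := Int.le_of_dvd (by norm_num) (mrtr_ord_dvd_two N v hv)
        omega
      · rw [mrtr_ord_eq_one N a ha0 ha v hv]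
        norm_num
  · omega

/-- ramified points of `j` lie over `0` or `1728`. -/
theorem mrtr_ord_two_le (v : Place QBar (modularFunctionFieldBar N)) (a : QBar)
    (h : 2 ≤ v.ord (jBar N - algebraMap QBar (modularFunctionFieldBar N) a)) :
    a = 0 ∨ a = 1728 := by
  by_contra hne
  rw [not_or] at hne
  have := mrtr_ord_eq_one N a hne.1 hne.2 v (by omega)
  omega

end Level

section TT

open Fermat.Agent.TT Fermat.Agent.G

local notation "Qb" => AlgebraicClosure ℚ

variable (M : ℕ) [NeZero M] {p : ℕ} [Fact p.Prime] [NeZero p] (A : ValuationSubring Qb)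

/-- `J = α j` of Program TT is the function `j` of level `M p`. -/
theorem mrtr_J_eq : ttrJ M A (p := p) = jBar (M * p) := by
  unfold ttrJ ttrJ0
  rw [ttrc_al_grdQ M p (grdi_mem_j M) (grdi_mem_j (M * p)), grdi_grdQ_j]

/-- **(T-RAM) in the spelling of Program TT** : `ord_P (J - c) ≤ 3` for every place `P` of
`F_ℚ̄(M p)` and every constant `c`. -/
theorem mrtr_ord_J_le_three (P : Place Qb (modularFunctionFieldBar (M * p))) (c : Qb) :
    P.ord (ttrJ M A - algebraMap Qb (modularFunctionFieldBar (M * p)) c) ≤ 3 := by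
  rw [mrtr_J_eq]
  exact mrtr_ord_le_three (M * p) P c

/-- ramified points of `J` lie over `0` or `1728`. -/
theorem mrtr_ord_J_two_le (P : Place Qb (modularFunctionFieldBar (M * p))) (c : Qb)
    (h : 2 ≤ P.ord (ttrJ M A - algebraMap Qb (modularFunctionFieldBar (M * p)) c)) :
    c = 0 ∨ c = 1728 := by
  rw [mrtr_J_eq] at h
  exact mrtr_ord_two_le (M * p) P c h

/-- over `J = 0` the ramification index divides `3`. -/
theorem mrtr_ord_J_dvd_three (P : Place Qb (modularFunctionFieldBar (M * p)))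
    (h : 0 < P.ord (ttrJ M A - algebraMap Qb (modularFunctionFieldBar (M * p)) 0)) :
    P.ord (ttrJ M A - algebraMap Qb (modularFunctionFieldBar (M * p)) 0) ∣ (3 : ℤ) := by
  rw [mrtr_J_eq] at h ⊢
  exact mrtr_ord_dvd_three (M * p) P h

/-- over `J = 1728` the ramification index divides `2`. -/
theorem mrtr_ord_J_dvd_two (P : Place Qb (modularFunctionFieldBar (M * p)))
    (h : 0 < P.ord (ttrJ M A - algebraMap Qb (modularFunctionFieldBar (M * p)) 1728)) :
    P.ord (ttrJ M A - algebraMap Qb (modularFunctionFieldBar (M * p)) 1728) ∣ (2 : ℤ) := by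
  rw [mrtr_J_eq] at h ⊢
  exact mrtr_ord_dvd_two (M * p) P h

end TT

end Fermat.Agent.MR
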