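import Mathlib
import Fermat.Agent.MR.Thick.OfSlope
import Fermat.Agent.MR.Thick.Ram
import Fermat.Agent.MR.Slope.Main
import Fermat.Agent.MR.Node.Spec
import Fermat.Agent.S24.Degree

/-!
# Program MR, block `mrt` (THICK) : THE CONCRETE INSTANCE at a node `i : ttrkS` of the landed
two-valuation model of `X₀(M p)`  (helper7)

`F = F_ℚ̄(M p)`, `V₁ = ttrV1`, `V₂ = ttraV2`, `redⱼ = ttraRedⱼ`, `J = ttrJ = α j`, node `i`, branches
`ν₁ i`, `ν₂ i`, annulus `ttruCenS i`.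

* `mrti_red₁_f`, `mrti_red₂_f` : `red₁ (J - j̃₀) = j̄ - j₀`, `red₂ (J - j̃₀) = j̄ ^ p - j₀`, both `≠ 0`;
* `mrti_lift` : the choice of `j̃₀ ∈ {0, 1728, a lift}` over a given `j₀ ∈ k` (`p ≥ 5`);
* **`mrt_thick_inst`** : hypothesis-first in the data of `mrn` (`MrsNode`, `MrnGlueSpec`, `J ∈ O_s`),
  `mrk` (`kron`, `e`), `mrtd` (`D`, `g₁`, `DY`, `DR`, `der_ann`), `mrca` (`cartier`) :
  `∃ r ≥ 1, r * e ≤ 3`, hence `¬ p ∣ e`.
-/

set_option autoImplicit false
set_option linter.unusedSectionVars false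
set_option linter.unusedVariables false
set_option linter.style.haveILetI false
set_option synthInstance.maxHeartbeats 400000

noncomputable section

namespace Fermat.Agent.MR

open Polynomial ModularCurve AlgebraicCurve IsLocalRing IntermediateField
  Fermat.Agent.G Fermat.Agent.S18 Fermat.Agent.S24 Fermat.Agent.FF Fermat.Agent.TT

local notation "Qb" => AlgebraicClosure ℚ

variable (M : ℕ) [NeZero M] {p : ℕ} [Fact p.Prime] [NeZero p]
variable (A : ValuationSubring Qb) (hpM : ¬ p ∣ M) (hA : A.LiesOverPrime p)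

/-! ### `j̄ ^ n` is not a constant -/

theorem mrti_jk_pow_ne (n : ℕ) (hn : n ≠ 0) (c : ResidueField A) :
    ttrJk M A ^ n - algebraMap (ResidueField A)
      ↥(modularFunctionFieldFullC (ResidueField A) M) c ≠ 0 := by
  intro h0
  have h1 : (jqModC (ResidueField A)) ^ n = HahnSeries.C c := by
    have := congrArg Subtype.val h0
    simp only [AddSubgroupClass.coe_sub, SubmonoidClass.coe_pow, ZeroMemClass.coe_zero] at this
    have h2 := sub_eq_zero.mp this
    rw [show ((ttrJk M A : ↥(modularFunctionFieldFullC (ResidueField A) M)) :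
      LaurentSeries (ResidueField A)) = jqModC (ResidueField A) from rfl] at h2
    rw [h2]
    show algebraMap (ResidueField A) (LaurentSeries (ResidueField A)) c = HahnSeries.C c
    rw [algebraMap_laurentSeries_eq_single]
    rfl
  have h3 := congrArg HahnSeries.order h1
  rw [HahnSeries.order_pow, s18db_order_jqModC, HahnSeries.order_C] at h3
  simp only [nsmul_eq_mul, mul_neg, mul_one, neg_eq_zero] at h3
  exact hn (by exact_mod_cast h3)

/-! ### `f = J - j̃₀` at the two Gauss valuations -/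

/-- `J - j̃₀ ∈ V₁` for `j̃₀ ∈ 𝔸` -/
theorem mrti_f_mem₁ (hM : MrsModel A (ttrV1 M A hpM hA) (ttraV2 M A hpM hA)
      (ttraRed1 M A hpM hA) (ttraRed2 M A hpM hA)) (a : A) :
    ttrJ M A - algebraMap Qb ↥(modularFunctionFieldBar (M * p)) (a : Qb) ∈ ttrV1 M A hpM hA :=
  (ttrV1 M A hpM hA).toSubring.sub_mem (ttrJ_mem M A) (hM.const₁ _ a.2)

/-- `J ∈ V₂` -/
theorem mrti_J_mem₂ : ttrJ M A (p := p) ∈ ttraV2 M A hpM hA :=
  ttr_alpha_mem₂ M A hpM (ttrJ0 M A).2

/-- `J - j̃₀ ∈ V₂` for `j̃₀ ∈ 𝔸` -/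
theorem mrti_f_mem₂ (hM : MrsModel A (ttrV1 M A hpM hA) (ttraV2 M A hpM hA)
      (ttraRed1 M A hpM hA) (ttraRed2 M A hpM hA)) (a : A) :
    ttrJ M A - algebraMap Qb ↥(modularFunctionFieldBar (M * p)) (a : Qb) ∈ ttraV2 M A hpM hA :=
  (ttraV2 M A hpM hA).toSubring.sub_mem (mrti_J_mem₂ M A hpM hA) (hM.const₂ _ a.2)

/-- `red₁ (J - j̃₀) = j̄ - j₀` -/
theorem mrti_red₁_f (hM : MrsModel A (ttrV1 M A hpM hA) (ttraV2 M A hpM hA)
      (ttraRed1 M A hpM hA) (ttraRed2 M A hpM hA)) (a : A) :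
    ttraRed1 M A hpM hA ⟨_, mrti_f_mem₁ M A hpM hA hM a⟩ =
      ttrJk M A - algebraMap (ResidueField A) _ (residue A a) := by
  have e : (⟨_, mrti_f_mem₁ M A hpM hA hM a⟩ : ↥(ttrV1 M A hpM hA)) =
      ⟨ttrJ M A, ttrJ_mem M A⟩ - ⟨_, hM.const₁ _ a.2⟩ := rfl
  rw [e, map_sub, hM.red_const₁ a]
  congr 1
  exact ttrRed1_J M A hA

/-- `red₂ J = j̄ ^ p` -/
theorem mrti_red₂_J :
    ttraRed2 M A hpM hA ⟨ttrJ M A, mrti_J_mem₂ M A hpM hA⟩ = ttrJk M A ^ p := by
  have h := ttrRed2_alpha M A hpM hA (ttrJ0 M A)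
  rw [ttr_red_J0, ttrPhi_Jk] at h
  exact h

/-- `red₂ (J - j̃₀) = j̄ ^ p - j₀` -/
theorem mrti_red₂_f (hM : MrsModel A (ttrV1 M A hpM hA) (ttraV2 M A hpM hA)
      (ttraRed1 M A hpM hA) (ttraRed2 M A hpM hA)) (a : A) :
    ttraRed2 M A hpM hA ⟨_, mrti_f_mem₂ M A hpM hA hM a⟩ =
      ttrJk M A ^ p - algebraMap (ResidueField A) _ (residue A a) := by
  have e : (⟨_, mrti_f_mem₂ M A hpM hA hM a⟩ : ↥(ttraV2 M A hpM hA)) =
      ⟨ttrJ M A, mrti_J_mem₂ M A hpM hA⟩ - ⟨_, hM.const₂ _ a.2⟩ := rfl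
  rw [e, map_sub, hM.red_const₂ a, mrti_red₂_J]

/-! ### the choice of the lift `j̃₀` -/

include hA in
/-- `1728 ≠ 0` in characteristic `p ≥ 5` -/
theorem mrti_1728_ne (hp5 : 5 ≤ p) : (1728 : ResidueField A) ≠ 0 := by
  haveI : CharP (ResidueField A) p := ttr_charP A hA
  intro h0
  have h1 : ((1728 : ℕ) : ResidueField A) = 0 := by exact_mod_cast h0
  rw [CharP.cast_eq_zero_iff (ResidueField A) p] at h1
  have hp : p.Prime := Fact.out
  have h2 : (1728 : ℕ) = 2 ^ 6 * 3 ^ 3 := by norm_num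
  rw [h2] at h1
  rcases hp.dvd_mul.mp h1 with h | h
  · have := Nat.le_of_dvd (by norm_num) (hp.dvd_of_dvd_pow h)
    omega
  · have := Nat.le_of_dvd (by norm_num) (hp.dvd_of_dvd_pow h)
    omega

include hA in
/-- **the lift** : over `c ∈ k` there is `a ∈ 𝔸` such that every lift of `c` lying in
`{0, 1728}` equals `a`. -/
theorem mrti_lift (hp5 : 5 ≤ p) (c : ResidueField A) :
    ∃ a : A, residue A a = c ∧
      ∀ b : A, residue A b = c → ((b : Qb) = 0 ∨ (b : Qb) = 1728) → (b : Qb) = (a : Qb) := by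
  have h1728 := mrti_1728_ne A hA hp5
  by_cases hc0 : c = 0
  · refine ⟨0, by rw [map_zero, hc0], fun b hb hb' => ?_⟩
    rcases hb' with h | h
    · rw [h]; rfl
    · exfalso
      have : b = 1728 := Subtype.ext (by rw [h]; rfl)
      rw [this, map_ofNat, hc0] at hb
      exact h1728 hb
  · by_cases hc1 : c = 1728
    · refine ⟨1728, by rw [map_ofNat, hc1], fun b hb hb' => ?_⟩
      rcases hb' with h | h
      · exfalso
        have : b = 0 := Subtype.ext (by rw [h]; rfl)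
        rw [this, map_zero] at hb
        exact hc0 hb.symm
      · rw [h]; rfl
    · obtain ⟨a, ha⟩ := residue_surjective c
      refine ⟨a, ha, fun b hb hb' => ?_⟩
      exfalso
      rcases hb' with h | h
      · have : b = 0 := Subtype.ext (by rw [h]; rfl)
        rw [this, map_zero] at hb
        exact hc0 hb.symm
      · have : b = 1728 := Subtype.ext (by rw [h]; rfl)
        rw [this, map_ofNat] at hb
        exact hc1 hb.symm

/-! ### THE INSTANCE -/

variable {τ τ' : LaurentSeries ℤ} (hat : GrdAtlas M A τ τ')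

/-- `J` is not a constant -/
theorem mrti_J_nonconst (a : Qb) :
    ttrJ M A (p := p) ≠ algebraMap Qb ↥(modularFunctionFieldBar (M * p)) a := by
  intro h
  have ht := (isSepGen_jBar (M * p)).transcendental
  rw [← mrtr_J_eq M A, h] at ht
  exact ht (isAlgebraic_algebraMap a)

set_option maxHeartbeats 1000000 in
/-- **(THICK) at the node `i` of the landed model** : `∃ r ≥ 1, r * e ≤ 3` when `|κ| = |p| ^ e`.
Inputs : `mrn` (`hN`, `hglue`, `hJs`), `mrk` (`kron`, `e`), `mrtd` (`D`, `g₁`, `DY`, `DR`,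
`der_ann`), `mrca` (`cartier`).  `mrs` (`mrs_slope`) and `mrtr` (`mrtr_ord_J_*`) are CONSUMED. -/
theorem mrt_thick_inst (hp5 : 5 ≤ p) (i : ttrkS M p A hpM hA hat)
    (u w : ↥(modularFunctionFieldBar (M * p))) (κ : Qb)
    (hM : MrsModel A (ttrV1 M A hpM hA) (ttraV2 M A hpM hA)
      (ttraRed1 M A hpM hA) (ttraRed2 M A hpM hA))
    (hN : MrsNode A (ttrV1 M A hpM hA) (ttraV2 M A hpM hA) (ttraRed1 M A hpM hA)
      (ttraRed2 M A hpM hA) (ttrkSν₁ M p A hpM hA hat i) (ttrkSν₂ M p A hpM hA hat i)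
      (ttruCenS M A hpM hA hat i) u w κ)
    (hglue : MrnGlueSpec M A hpM hA hat)
    (hJs : ∀ v, ttruCenS M A hpM hA hat i v → ttrJ M A ∈ v.toValuationSubring)
    (e : ℕ) (hκ : A.valuation κ = A.valuation (p : Qb) ^ e)
    (Y Rm : ↥(ttraV2 M A hpM hA))
    (kron : ttrJ M A = (Y : ↥(modularFunctionFieldBar (M * p))) ^ p +
      (p : ↥(modularFunctionFieldBar (M * p))) * (Rm : ↥(modularFunctionFieldBar (M * p))))
    (D : ↥(modularFunctionFieldBar (M * p)) → ↥(modularFunctionFieldBar (M * p)))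
    (D_add : ∀ x y, D (x + y) = D x + D y) (D_mul : ∀ x y, D (x * y) = x * D y + y * D x)
    (D_const : ∀ a : Qb, D (algebraMap Qb ↥(modularFunctionFieldBar (M * p)) a) = 0)
    (g₁ : ↥(ttrV1 M A hpM hA))
    (g₁_eq : (g₁ : ↥(modularFunctionFieldBar (M * p))) = D (ttrJ M A))
    (g₁_red : ttraRed1 M A hpM hA g₁ ≠ 0)
    (g₁_ord : ∀ c : ResidueField A, GrdVal (ttrkSν₁ M p A hpM hA hat i) (ttrJk M A) c →
      (ttrkSν₁ M p A hpM hA hat i).ord (ttrJk M A - algebraMap (ResidueField A) _ c) ≤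
        (ttrkSν₁ M p A hpM hA hat i).ord (ttraRed1 M A hpM hA g₁))
    (DY DR : ↥(ttraV2 M A hpM hA))
    (DY_eq : (DY : ↥(modularFunctionFieldBar (M * p))) = D (Y : ↥(modularFunctionFieldBar (M * p))))
    (DR_eq : (DR : ↥(modularFunctionFieldBar (M * p))) = D (Rm : ↥(modularFunctionFieldBar (M * p))))
    (cartier : ttraRed2 M A hpM hA Y ^ (p - 1) * ttraRed2 M A hpM hA DY +
      ttraRed2 M A hpM hA DR ≠ 0)
    (der_ann : ∀ R, ttruCenS M A hpM hA hat i R → ∀ a : Qb,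
      ttrJ M A - algebraMap Qb ↥(modularFunctionFieldBar (M * p)) a ∈
        R.toValuationSubring.nonunits →
      R.ord (D (ttrJ M A)) =
        R.ord (ttrJ M A - algebraMap Qb ↥(modularFunctionFieldBar (M * p)) a) - 1) :
    ∃ r : ℕ, 1 ≤ r ∧ r * e ≤ 3 := by
  -- the value of `j̄` at the node and the values of `J` on the annulus
  have hJO2 : ttrJ M A ∈ ttrglO2 M A hpM hA := ⟨ttrJ_mem M A, mrti_J_mem₂ M A hpM hA⟩
  obtain ⟨c, hc₁, -, hcv⟩ := hglue i (ttrJ M A) hJO2 hJs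
  have hc₁' : GrdVal (ttrkSν₁ M p A hpM hA hat i) (ttrJk M A) c := by
    have e1 : ttrglRed₁ M A hpM hA ⟨ttrJ M A, hJO2⟩ = ttrJk M A := by
      rw [ttalRedO₁_apply]
      exact ttrRed1_J M A hA
    rwa [e1] at hc₁
  -- the lift
  obtain ⟨a0, ha0, hlift⟩ := mrti_lift A hA hp5 c
  have hf₁ := mrti_red₁_f M A hpM hA hM a0
  have hf₂ := mrti_red₂_f M A hpM hA hM a0
  rw [ha0] at hf₁ hf₂
  have hne₁ : ttrJk M A - algebraMap (ResidueField A)
      ↥(modularFunctionFieldFullC (ResidueField A) M) c ≠ 0 := by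
    have := mrti_jk_pow_ne M A 1 one_ne_zero c
    rwa [pow_one] at this
  have hne₂ := mrti_jk_pow_ne M A p (NeZero.ne p) c
  -- `r`
  have hord : 1 ≤ (ttrkSν₁ M p A hpM hA hat i).ord
      (ttrJk M A - algebraMap (ResidueField A) _ c) := mrt_one_le_ord _ hc₁' hne₁
  obtain ⟨r, hr⟩ : ∃ r : ℕ, (ttrkSν₁ M p A hpM hA hat i).ord
      (ttrJk M A - algebraMap (ResidueField A) _ c) = r :=
    ⟨((ttrkSν₁ M p A hpM hA hat i).ord (ttrJk M A - algebraMap (ResidueField A) _ c)).toNat, by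
      omega⟩
  refine ⟨r, by omega, ?_⟩
  -- the zeros of `f` on the annulus
  classical
  have hsep := (isSepGen_jBar (M * p)).sub_algebraMap (a0 : Qb)
  rw [← mrtr_J_eq M A] at hsep
  set Z : Finset (Place Qb ↥(modularFunctionFieldBar (M * p))) :=
    hsep.finite_ord_pos.toFinset.filter (fun R => ttruCenS M A hpM hA hat i R) with hZ
  have hp0 : (p : Qb) ≠ 0 := by exact_mod_cast (NeZero.ne p)
  refine mrt_thick_of_mrs A (ttrV1 M A hpM hA) (ttraV2 M A hpM hA) (ttraRed1 M A hpM hA)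
    (ttraRed2 M A hpM hA) (ttrkSν₁ M p A hpM hA hat i) (ttrkSν₂ M p A hpM hA hat i)
    (ttruCenS M A hpM hA hat i) u w κ hM hN (mrs_slope) p hp0 hA e hκ (ttrJ M A) (a0 : Qb)
    (mrti_f_mem₁ M A hpM hA hM a0) (mrti_f_mem₂ M A hpM hA hM a0) Y Rm kron
    (by rw [hf₁]; exact hne₁) (by rw [hf₂]; exact hne₂) r (by rw [hf₁]; exact hr)
    D D_add D_mul D_const g₁ g₁_eq g₁_red (by rw [hf₁]; exact g₁_ord c hc₁')
    DY DY_eq DR DR_eq cartier ?_ (mrti_J_nonconst M A) der_ann ?_ Z ?_ ?_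
  · -- values of `J`
    intro R hR
    obtain ⟨a, ha, -⟩ := hcv R hR
    exact ⟨(a : Qb), ha⟩
  · -- ramification
    intro R hR a ha
    refine ⟨mrtr_ord_J_le_three M A R a, fun h2 => ?_⟩
    obtain ⟨a', ha', hres⟩ := hcv R hR
    have haa : a = (a' : Qb) := grdg_val_unique R ha ha'
    rw [haa]
    exact hlift a' hres (by rw [← haa]; exact mrtr_ord_J_two_le M A R a h2)
  · intro R hR
    exact (Finset.mem_filter.mp hR).2
  · intro R hR hne
    rw [hZ, Finset.mem_filter, Set.Finite.mem_toFinset]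
    refine ⟨?_, hR⟩
    obtain ⟨a, ha, -⟩ := hcv R hR
    have hmem : ttrJ M A - algebraMap Qb ↥(modularFunctionFieldBar (M * p)) (a0 : Qb) ∈
        R.toValuationSubring :=
      sub_mem (grdg_val_mem R ha) (R.algebraMap_mem' _)
    have h0 := PlaceOrd.ord_nonneg_of_mem R hmem
    have hpos : 0 < R.ord (ttrJ M A - algebraMap Qb ↥(modularFunctionFieldBar (M * p))
        (a0 : Qb)) := by omega
    exact hpos

/-- **`p ∤ e`** at the node `i` of the landed model. -/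
theorem mrt_not_dvd_inst (hp5 : 5 ≤ p) (e : ℕ) (he : 1 ≤ e) (h : ∃ r : ℕ, 1 ≤ r ∧ r * e ≤ 3) :
    ¬ p ∣ e := by
  obtain ⟨r, hr, hre⟩ := h
  intro hdvd
  have he3 : e ≤ 3 := by
    calc e = 1 * e := (one_mul _).symm
      _ ≤ r * e := Nat.mul_le_mul_right _ hr
      _ ≤ 3 := hre
  have := Nat.le_of_dvd (by omega) hdvd
  omega

end Fermat.Agent.MR
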