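import Mathlib
import Fermat.Agent.MR.Thick.Inst
import Fermat.Agent.MR.Thick.DerivInst
import Fermat.Agent.MR.Kron.Frob
import Fermat.Agent.MR.Node.UpperNode
import Fermat.Agent.MR.Node.Glue
import Fermat.Agent.MR.Slope.Inst
import Fermat.Agent.MR.M.Leaf

/-!
# Program MR, block `mrt` (THICK) : **`MrmThickLeaf` AT LEVEL `M`, HYPOTHESIS-FREE**  (helper7)

`mrt_thickLeaf_j (h5 : 5 ≤ p) (hat : GrdAtlas M 𝔸 j σ') : MrmThickLeaf M 𝔸 hpM h𝔸 hat` :
for EVERY thickness function `E` (`MrmIsThick`) and every node `Q`, `p ∤ E Q`.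

All plugs are closed literals of the other blocks :
* `mrnup_node` (helper19, `MR/Node/UpperNode.lean`) : `MrsNode` at every node + `|κ| = |p| ^ E`;
* `mrs_model_inst` (helper29), `mrn_glue` (helper19), `mrs_slope` (helper29, inside `mrt_thick_inst`);
* `mrk_frob` (helper25) : `J = Y ^ p + p R₂`, `R₂ ∈ V₂`;
* `mrtdFun_*`, `mrtd_inst_g₁_J`, `mrtd_inst_cartier`, `mrtd_inst_der_ann_J` (helper17) with
  `D = D_u = mrtdD (M p) u`;
* `mrtr_ord_J_*` (helper8, inside `mrt_thick_inst`);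
* `mrt_thick_inst`, `mrt_not_dvd_inst` (`MR/Thick/Inst.lean`).
-/

set_option autoImplicit false
set_option linter.unusedSectionVars false
set_option linter.unusedVariables false
set_option linter.style.haveILetI false
set_option synthInstance.maxHeartbeats 400000

noncomputable section

namespace Fermat.Agent.MR

open Polynomial ModularCurve AlgebraicCurve IsLocalRing IntermediateField
  Fermat.Agent.G Fermat.Agent.S18 Fermat.Agent.S24 Fermat.Agent.FF Fermat.Agent.TT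
  Fermat.Agent.SS Fermat.Agent.SQ

local notation "Qb" => AlgebraicClosure ℚ

variable (M : ℕ) [NeZero M] {p : ℕ} [Fact p.Prime] [NeZero p]
variable (A : ValuationSubring Qb) (hpM : ¬ p ∣ M) (hA : A.LiesOverPrime p)
variable {σ' : LaurentSeries ℤ} (hat : GrdAtlas M A (jqModC ℤ) σ')

/-- `J = α j` has no pole at the places of the annulus of a node (`j`-atlas). -/
theorem mrtc_J_reg (i : ttrkS M p A hpM hA hat)
    (v : Place Qb ↥(modularFunctionFieldBar (M * p))) (hv : ttruCenS M A hpM hA hat i v) :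
    ttrJ M A ∈ v.toValuationSubring := by
  obtain ⟨⟨a, ha⟩, -⟩ := hv
  exact grdg_val_mem v ha

/-- the fields `g₁`, `g₁_eq`, `g₁_red`, `g₁_ord` of `mrt_thick_inst`, uniformly in the value
`c` of `j̄` at the node. -/
theorem mrtc_g₁
    (Q₁ : Place (ResidueField A) ↥(modularFunctionFieldFullC (ResidueField A) M))
    (u : ↥(modularFunctionFieldBar (M * p))) (hu : u ∈ ttrV1 M A hpM hA)
    (hord : Q₁.ord (ttraRed1 M A hpM hA ⟨u, hu⟩) = 1) :
    ∃ g₁ : ↥(ttrV1 M A hpM hA),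
      (g₁ : ↥(modularFunctionFieldBar (M * p))) = mrtdD (M * p) u (ttrJ M A) ∧
      ttraRed1 M A hpM hA g₁ ≠ 0 ∧
      ∀ c : ResidueField A,
        Q₁.ord (ttrJk M A - algebraMap (ResidueField A)
          ↥(modularFunctionFieldFullC (ResidueField A) M) c) ≤
          Q₁.ord (ttraRed1 M A hpM hA g₁) := by
  have hM := mrs_model_inst M A hpM hA
  obtain ⟨g₁, h1, h2, -⟩ := mrtd_inst_g₁_J M A hpM hA Q₁ u hu hord (ttrJ M A) (ttrJ_mem M A)
    (mrtd_theta_red_J M A hpM hA) ((0 : A) : Qb) (0 : A).2 (mrti_f_mem₁ M A hpM hA hM 0)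
  refine ⟨g₁, h1, h2, fun c => ?_⟩
  obtain ⟨a, ha⟩ := residue_surjective c
  obtain ⟨g', h1', -, h3'⟩ := mrtd_inst_g₁_J M A hpM hA Q₁ u hu hord (ttrJ M A) (ttrJ_mem M A)
    (mrtd_theta_red_J M A hpM hA) (a : Qb) a.2 (mrti_f_mem₁ M A hpM hA hM a)
  have hg : g' = g₁ := Subtype.ext (h1'.trans h1.symm)
  rw [hg, mrti_red₁_f M A hpM hA hM a, ha] at h3'
  exact h3'

set_option maxHeartbeats 1000000 in
/-- **(THICK), closed at level `M`** : for every thickness function `E` and every node `Q`,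
`p ∤ E Q` (`p ≥ 5`, the `j`-atlas). -/
theorem mrt_thickLeaf_j (h5 : 5 ≤ p) : MrmThickLeaf M A hpM hA hat := by
  intro E hE Q hQ
  obtain ⟨i, rfl⟩ := hQ
  obtain ⟨u, w, κ, hN, hκ⟩ := mrnup_node M A hpM hA hat h5 E hE i
  have hM := mrs_model_inst M A hpM hA
  have hglue := mrn_glue M A hpM hA hat
  -- `1 ≤ e`
  have he : 1 ≤ E (ttrkSν₁ M p A hpM hA hat i) := by
    by_contra h
    have h0 : E (ttrkSν₁ M p A hpM hA hat i) = 0 := by omega
    rw [h0, pow_zero] at hκ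
    have h1 : A.valuation κ < 1 := hN.kap_mem
    rw [hκ] at h1
    exact lt_irrefl _ h1
  -- Kronecker
  obtain ⟨⟨R₂, hR₂, hkron⟩, -⟩ := mrk_frob M A hpM hA
  have hYmem : ttrY M A (p := p) ∈ ttraV2 M A hpM hA := ttr_beta_mem₂ M A hpM (ttrJ0 M A).2
  -- the derivation `D_u`
  obtain ⟨g₁, hg₁, hg₁ne, hg₁ord⟩ := mrtc_g₁ M A hpM hA (ttrkSν₁ M p A hpM hA hat i) u
    hN.u_unit.1 (hN.u_ord _)
  obtain ⟨DY, DR, hDY, hDR, hcart⟩ := mrtd_inst_cartier M A hpM hA
    (ttrkSν₂ M p A hpM hA hat i) u w κ hN.mul hN.kap_ne hN.w_unit.1 (hN.w_ord _)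
    ⟨ttrY M A, hYmem⟩ ⟨R₂, hR₂⟩ (mrtd_theta_red_Y M A hpM hA hYmem)
  have hthick := mrt_thick_inst M A hpM hA hat h5 i u w κ hM hN hglue
    (mrtc_J_reg M A hpM hA hat i) (E (ttrkSν₁ M p A hpM hA hat i)) hκ
    ⟨ttrY M A, hYmem⟩ ⟨R₂, hR₂⟩ hkron
    (fun x => mrtdD (M * p) u x) (mrtdFun_add (M * p) u) (mrtdFun_mul (M * p) u)
    (mrtdFun_const (M * p) u) g₁ hg₁ hg₁ne (fun c _ => hg₁ord c) DY DR hDY hDR hcart
    (fun R hR a ha => by
      obtain ⟨a₀, hval, ha₀, -, -⟩ := hN.cen_val R hR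
      exact mrtd_inst_der_ann_J (M * p) u (ttrJ M A) (mrti_J_nonconst M A) R a₀ ha₀
        (hN.cen_simple R hR a₀ hval) a ha)
  exact mrt_not_dvd_inst h5 (E (ttrkSν₁ M p A hpM hA hat i)) he hthick

end Fermat.Agent.MR
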